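/-
Shared library (owner helper167): the Hauptmoduln `h₂ = Δ(2z)/Δ(z)` of `X₀(2)` and
`h₃ = (η(3z)/η(z))^12` of `X₀(3)` as formal `q`-series built from the Prelude's `etaProd`.
Definitions only.
-/
import Mathlib
import Fermat.Prelude.Def_ModularCurve_X0

set_option autoImplicit false

noncomputable section

namespace Fermat.Agent.Lib.Hauptmodul

open ModularCurve

/-- inverse of the Euler product `∏ (1 - q^n)` -/
def etaProdInv : PowerSeries ℤ := etaProd.invOfUnit 1

theorem etaProd_mul_inv : etaProd * etaProdInv = 1 :=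
  PowerSeries.mul_invOfUnit _ _ (by rw [constantCoeff_etaProd]; rfl)

/-- the power series `P(q^d)` -/
def dilZ (d : ℕ) (P : PowerSeries ℤ) : PowerSeries ℤ :=
  PowerSeries.mk fun m => if d ∣ m then P.coeff (m / d) else 0

/-- `∏ ((1 - q^{2n}) / (1 - q^n))^24` -/
def u2Z : PowerSeries ℤ := (dilZ 2 etaProd * etaProdInv) ^ 24

/-- `∏ ((1 - q^{3n}) / (1 - q^n))^12` -/
def u3Z : PowerSeries ℤ := (dilZ 3 etaProd * etaProdInv) ^ 12

/-- `h₂ = q ∏ ((1 - q^{2n}) / (1 - q^n))^24 = Δ(2z)/Δ(z)` -/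
def h2Z : PowerSeries ℤ := PowerSeries.X * u2Z

/-- `h₃ = q ∏ ((1 - q^{3n}) / (1 - q^n))^12 = (η(3z)/η(z))^12` -/
def h3Z : PowerSeries ℤ := PowerSeries.X * u3Z

/-- an integral power series as a Laurent series over any commutative ring -/
def toL (S : Type*) [CommRing S] : PowerSeries ℤ →+* LaurentSeries S :=
  (HahnSeries.ofPowerSeries ℤ S).comp (PowerSeries.map (Int.castRingHom S))

/-- `h₂` as a Laurent series over `ℚ` -/
def h2q : LaurentSeries ℚ := toL ℚ h2Z

/-- `h₃` as a Laurent series over `ℚ` -/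
def h3q : LaurentSeries ℚ := toL ℚ h3Z

end Fermat.Agent.Lib.Hauptmodul
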