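/-
Hauptmoduln: basic formal facts (integrality, leading term, base change of coefficients).
(skeleton helper167, proofs helper187, task HM-1)
-/
import Fermat.Agent.Lib.Hauptmodul.Defs
import Fermat.Prelude.Def_ModularCurve_LaurentCoeff

set_option autoImplicit false

noncomputable section

namespace Fermat.Agent.Lib.Hauptmodul

open ModularCurve

theorem constantCoeff_etaProdInv : PowerSeries.constantCoeff etaProdInv = 1 := by
  have h := congrArg (PowerSeries.constantCoeff (R := ℤ)) etaProd_mul_inv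
  rwa [map_mul, constantCoeff_etaProd, one_mul, map_one] at h

theorem constantCoeff_dilZ (d : ℕ) (P : PowerSeries ℤ) :
    PowerSeries.constantCoeff (dilZ d P) = PowerSeries.constantCoeff P := by
  rw [← PowerSeries.coeff_zero_eq_constantCoeff_apply, ← PowerSeries.coeff_zero_eq_constantCoeff_apply,
    dilZ, PowerSeries.coeff_mk, if_pos (dvd_zero d), Nat.zero_div]

theorem constantCoeff_u2Z : PowerSeries.constantCoeff u2Z = 1 := by
  rw [u2Z, map_pow, map_mul, constantCoeff_dilZ, constantCoeff_etaProd, constantCoeff_etaProdInv,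
    one_mul, one_pow]

theorem constantCoeff_u3Z : PowerSeries.constantCoeff u3Z = 1 := by
  rw [u3Z, map_pow, map_mul, constantCoeff_dilZ, constantCoeff_etaProd, constantCoeff_etaProdInv,
    one_mul, one_pow]

theorem toL_coeff_natCast (S : Type*) [CommRing S] (P : PowerSeries ℤ) (n : ℕ) :
    (toL S P).coeff (n : ℤ) = ((P.coeff n : ℤ) : S) := by
  rw [toL, RingHom.comp_apply, HahnSeries.ofPowerSeries_apply_coeff, PowerSeries.coeff_map]
  rfl

theorem toL_coeff_of_neg (S : Type*) [CommRing S] (P : PowerSeries ℤ) {k : ℤ} (hk : k < 0) :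
    (toL S P).coeff k = 0 := by
  rw [toL, RingHom.comp_apply]
  exact ofPowerSeries_coeff_of_neg _ hk

theorem toL_injective (S : Type*) [CommRing S] [CharZero S] : Function.Injective (toL S) := by
  intro P Q h
  ext n
  have h1 := congrArg (fun x => HahnSeries.coeff x (n : ℤ)) h
  simp only [toL_coeff_natCast] at h1
  exact Int.cast_injective h1

/-- compatibility with the Prelude's `qExpand` -/
theorem toL_dilZ (S : Type*) [CommRing S] (d : ℕ) [NeZero d] (P : PowerSeries ℤ) :
    toL S (dilZ d P) = qExpand S d (toL S P) := by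
  ext k
  by_cases hk : (d : ℤ) ∣ k
  · obtain ⟨m, rfl⟩ := hk
    rw [qExpand_coeff_mul]
    rcases lt_or_ge m 0 with hm | hm
    · have hd0 : (0 : ℤ) < d := by exact_mod_cast NeZero.pos d
      rw [toL_coeff_of_neg _ _ hm, toL_coeff_of_neg _ _ (mul_neg_of_pos_of_neg hd0 hm)]
    · obtain ⟨n, rfl⟩ := Int.eq_ofNat_of_zero_le hm
      rw [← Nat.cast_mul, toL_coeff_natCast, toL_coeff_natCast, dilZ, PowerSeries.coeff_mk,
        if_pos (Dvd.intro n rfl), Nat.mul_div_cancel_left _ (NeZero.pos d)]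
  · rw [qExpand_coeff_of_not_dvd d _ hk]
    rcases lt_or_ge k 0 with hm | hm
    · rw [toL_coeff_of_neg _ _ hm]
    · obtain ⟨n, rfl⟩ := Int.eq_ofNat_of_zero_le hm
      rw [toL_coeff_natCast, dilZ, PowerSeries.coeff_mk, if_neg, Int.cast_zero]
      exact fun h => hk (Int.natCast_dvd_natCast.mpr h)

/-- `dilZ d` is a ring homomorphism (`d ≠ 0`) -/
theorem dilZ_mul (d : ℕ) [NeZero d] (P Q : PowerSeries ℤ) :
    dilZ d (P * Q) = dilZ d P * dilZ d Q := by
  apply toL_injective ℤ
  rw [toL_dilZ, map_mul, map_mul, map_mul, toL_dilZ, toL_dilZ]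

theorem dilZ_add (d : ℕ) (P Q : PowerSeries ℤ) : dilZ d (P + Q) = dilZ d P + dilZ d Q := by
  ext n
  rw [map_add, dilZ, dilZ, dilZ, PowerSeries.coeff_mk, PowerSeries.coeff_mk, PowerSeries.coeff_mk]
  split_ifs
  · rw [map_add]
  · rw [add_zero]

theorem dilZ_one (d : ℕ) [NeZero d] : dilZ d 1 = 1 := by
  apply toL_injective ℤ
  rw [toL_dilZ, map_one, map_one]

theorem dilZ_pow (d : ℕ) [NeZero d] (P : PowerSeries ℤ) (n : ℕ) :
    dilZ d (P ^ n) = dilZ d P ^ n := by
  induction n with
  | zero => rw [pow_zero, pow_zero, dilZ_one]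
  | succ n ih => rw [pow_succ, pow_succ, dilZ_mul, ih]

theorem toL_X (S : Type*) [CommRing S] : toL S PowerSeries.X = HahnSeries.single (1 : ℤ) 1 := by
  rw [toL, RingHom.comp_apply, PowerSeries.map_X, HahnSeries.ofPowerSeries_X]

theorem dilZ_X (d : ℕ) [NeZero d] : dilZ d PowerSeries.X = PowerSeries.X ^ d := by
  apply toL_injective ℤ
  rw [toL_dilZ, map_pow, toL_X, qExpand_single, HahnSeries.single_pow, one_pow, mul_one,
    nsmul_eq_mul, mul_one]

/-- change of coefficient ring -/
theorem coeffMap_toL {S T : Type*} [CommRing S] [CommRing T] (f : S →+* T) (P : PowerSeries ℤ) :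
    coeffMap f (toL S P) = toL T P := by
  ext k
  rw [coeffMap_coeff]
  rcases lt_or_ge k 0 with hm | hm
  · rw [toL_coeff_of_neg _ _ hm, toL_coeff_of_neg _ _ hm, map_zero]
  · obtain ⟨n, rfl⟩ := Int.eq_ofNat_of_zero_le hm
    rw [toL_coeff_natCast, toL_coeff_natCast, map_intCast]

/-- the Prelude's `jq` in terms of `toL` -/
theorem jq_eq : jq = HahnSeries.single (-1 : ℤ) 1 * toL ℚ jNum := rfl

/-- `toL` of a series with constant coefficient `1` is invertible -/
theorem toL_mul_toL_invOfUnit (S : Type*) [CommRing S] (P : PowerSeries ℤ)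
    (hP : PowerSeries.constantCoeff P = 1) : toL S P * toL S (P.invOfUnit 1) = 1 := by
  rw [← map_mul, PowerSeries.mul_invOfUnit _ _ (by rw [hP]; rfl), map_one]

theorem Basic.coeff_toL_X_mul_one (u : PowerSeries ℤ) (hu : PowerSeries.constantCoeff u = 1) :
    (toL ℚ (PowerSeries.X * u)).coeff 1 = 1 := by
  have h := toL_coeff_natCast ℚ (PowerSeries.X * u) 1
  rw [Nat.cast_one] at h
  rw [h, show (1 : ℕ) = 0 + 1 from rfl, PowerSeries.coeff_succ_X_mul,
    PowerSeries.coeff_zero_eq_constantCoeff_apply, hu, Int.cast_one]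

theorem Basic.coeff_toL_X_mul_of_lt (u : PowerSeries ℤ) {k : ℤ} (hk : k < 1) :
    (toL ℚ (PowerSeries.X * u)).coeff k = 0 := by
  rcases lt_or_ge k 0 with hm | hm
  · exact toL_coeff_of_neg _ _ hm
  · have hk0 : k = ((0 : ℕ) : ℤ) := by push_cast; omega
    rw [hk0, toL_coeff_natCast, PowerSeries.coeff_zero_X_mul, Int.cast_zero]

theorem coeff_h2q_one : h2q.coeff 1 = 1 :=
  Basic.coeff_toL_X_mul_one u2Z constantCoeff_u2Z

theorem coeff_h3q_one : h3q.coeff 1 = 1 :=
  Basic.coeff_toL_X_mul_one u3Z constantCoeff_u3Z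

theorem coeff_h2q_of_lt {k : ℤ} (hk : k < 1) : h2q.coeff k = 0 :=
  Basic.coeff_toL_X_mul_of_lt u2Z hk

theorem coeff_h3q_of_lt {k : ℤ} (hk : k < 1) : h3q.coeff k = 0 :=
  Basic.coeff_toL_X_mul_of_lt u3Z hk

/-- a Laurent series over a field `L` with zero coefficients in degrees `< 1` and coefficient `1`
in degree `1` is transcendental over the constants -/
theorem transcendental_of_coeff {L : Type*} [Field L] (x : LaurentSeries L)
    (h0 : ∀ k : ℤ, k < 1 → x.coeff k = 0) (h1 : x.coeff 1 = 1) : Transcendental L x := by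
  intro halg
  -- `x` comes from a power series without constant term
  set P : PowerSeries L := PowerSeries.mk fun n => x.coeff (n : ℤ) with hP
  have hxP : HahnSeries.ofPowerSeries ℤ L P = x := by
    ext k
    rcases lt_or_ge k 0 with hm | hm
    · rw [h0 k (by omega)]
      exact ofPowerSeries_coeff_of_neg _ hm
    · obtain ⟨n, rfl⟩ := Int.eq_ofNat_of_zero_le hm
      rw [HahnSeries.ofPowerSeries_apply_coeff, hP, PowerSeries.coeff_mk]
  have hP0 : PowerSeries.constantCoeff P = 0 := by
    rw [← PowerSeries.coeff_zero_eq_constantCoeff_apply, hP, PowerSeries.coeff_mk]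
    exact h0 _ (by norm_num)
  have hx0 : x ≠ 0 := by
    intro h
    rw [h, HahnSeries.coeff_zero] at h1
    exact zero_ne_one h1
  -- the inverse of `x` is a polynomial in `x`
  have hinv : x⁻¹ ∈ Algebra.adjoin L {x} := by
    have h3 := IntermediateField.adjoin_simple_toSubalgebra_of_isAlgebraic halg
    have h4 : x⁻¹ ∈ IntermediateField.adjoin L {x} :=
      inv_mem (IntermediateField.mem_adjoin_simple_self L x)
    rw [← IntermediateField.mem_toSubalgebra, h3] at h4
    exact h4
  have hle : ∀ y ∈ Algebra.adjoin L {x}, ∃ Q : PowerSeries L, HahnSeries.ofPowerSeries ℤ L Q = y := by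
    intro y hy
    induction hy using Algebra.adjoin_induction with
    | mem y hy =>
      rw [Set.mem_singleton_iff] at hy
      exact ⟨P, by rw [hxP, hy]⟩
    | algebraMap r =>
      refine ⟨PowerSeries.C r, ?_⟩
      rw [algebraMap_laurentSeries_eq_single, HahnSeries.ofPowerSeries_C]
      rfl
    | add y z _ _ hy hz =>
      obtain ⟨Q₁, rfl⟩ := hy
      obtain ⟨Q₂, rfl⟩ := hz
      exact ⟨Q₁ + Q₂, map_add _ _ _⟩
    | mul y z _ _ hy hz =>
      obtain ⟨Q₁, rfl⟩ := hy
      obtain ⟨Q₂, rfl⟩ := hz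
      exact ⟨Q₁ * Q₂, map_mul _ _ _⟩
  obtain ⟨Q, hQ⟩ := hle _ hinv
  have h5 : HahnSeries.ofPowerSeries ℤ L (Q * P) = HahnSeries.ofPowerSeries ℤ L 1 := by
    rw [map_mul, map_one, hxP, hQ, inv_mul_cancel₀ hx0]
  have h6 : Q * P = 1 := HahnSeries.ofPowerSeries_injective h5
  have h7 := congrArg (PowerSeries.constantCoeff (R := L)) h6
  rw [map_mul, hP0, mul_zero, map_one] at h7
  exact zero_ne_one h7

end Fermat.Agent.Lib.Hauptmodul
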