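/-
Verified truncated arithmetic of integer power series with coefficient lists (owner helper167).
-/
import Mathlib

set_option autoImplicit false

namespace Fermat.Agent.Lib.Hauptmodul.Trunc

/-- `l` lists the first `n` coefficients of `f`. -/
def Approx (n : ℕ) (f : PowerSeries ℤ) (l : List ℤ) : Prop :=
  ∀ k < n, f.coeff k = l.getD k 0

/-- the list `[g 0, ..., g (n-1)]` -/
def tab (n : ℕ) (g : ℕ → ℤ) : List ℤ := (List.range n).map g

theorem getD_tab {n k : ℕ} (g : ℕ → ℤ) (h : k < n) : (tab n g).getD k 0 = g k := by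
  simp [tab, List.getD_eq_getElem?_getD, h]

def mulT (n : ℕ) (a b : List ℤ) : List ℤ :=
  tab n fun k => ((List.range (k + 1)).map fun i => a.getD i 0 * b.getD (k - i) 0).sum

def addT (n : ℕ) (a b : List ℤ) : List ℤ := tab n fun k => a.getD k 0 + b.getD k 0

def subT (n : ℕ) (a b : List ℤ) : List ℤ := tab n fun k => a.getD k 0 - b.getD k 0

def smulT (n : ℕ) (c : ℤ) (a : List ℤ) : List ℤ := tab n fun k => c * a.getD k 0

def dilT (n d : ℕ) (a : List ℤ) : List ℤ :=
  tab n fun k => if d ∣ k then a.getD (k / d) 0 else 0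

def powT (n : ℕ) (a : List ℤ) : ℕ → List ℤ
  | 0 => tab n fun k => if k = 0 then 1 else 0
  | m + 1 => mulT n (powT n a m) a

theorem sum_map_range (m : ℕ) (g : ℕ → ℤ) :
    ((List.range m).map g).sum = ∑ i ∈ Finset.range m, g i := by
  induction m with
  | zero => simp
  | succ m ih => rw [List.range_succ, List.map_append, List.sum_append, ih,
      Finset.sum_range_succ]; simp

variable {n : ℕ} {f g : PowerSeries ℤ} {a b : List ℤ}

theorem Approx.mul (hf : Approx n f a) (hg : Approx n g b) : Approx n (f * g) (mulT n a b) := by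
  intro k hk
  rw [mulT, getD_tab _ hk, sum_map_range, PowerSeries.coeff_mul,
    Finset.Nat.sum_antidiagonal_eq_sum_range_succ (fun i j => f.coeff i * g.coeff j)]
  refine Finset.sum_congr rfl fun i hi => ?_
  rw [Finset.mem_range] at hi
  rw [hf i (by omega), hg (k - i) (by omega)]

theorem Approx.add (hf : Approx n f a) (hg : Approx n g b) : Approx n (f + g) (addT n a b) := by
  intro k hk
  rw [addT, getD_tab _ hk, map_add, hf k hk, hg k hk]

theorem Approx.sub (hf : Approx n f a) (hg : Approx n g b) : Approx n (f - g) (subT n a b) := by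
  intro k hk
  rw [subT, getD_tab _ hk, map_sub, hf k hk, hg k hk]

theorem Approx.smul (c : ℤ) (hf : Approx n f a) :
    Approx n (PowerSeries.C c * f) (smulT n c a) := by
  intro k hk
  rw [smulT, getD_tab _ hk, PowerSeries.coeff_C_mul, hf k hk]

theorem Approx.pow (hf : Approx n f a) (m : ℕ) : Approx n (f ^ m) (powT n a m) := by
  induction m with
  | zero =>
    intro k hk
    rw [powT, getD_tab _ hk, pow_zero, PowerSeries.coeff_one]
  | succ m ih => rw [pow_succ, powT]; exact ih.mul hf

theorem Approx.dil (d : ℕ) (hd : 0 < d) (hf : Approx n f a) :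
    Approx n (PowerSeries.mk fun m => if d ∣ m then f.coeff (m / d) else 0) (dilT n d a) := by
  intro k hk
  rw [dilT, getD_tab _ hk, PowerSeries.coeff_mk]
  split_ifs with h
  · exact hf _ (lt_of_le_of_lt (Nat.div_le_self k d) hk)
  · rfl

/-- cancel an integer factor -/
theorem Approx.of_smul {c : ℤ} (hc : c ≠ 0) (hf : Approx n (PowerSeries.C c * f) b)
    (hab : ∀ k < n, b.getD k 0 = c * a.getD k 0) : Approx n f a := by
  intro k hk
  have h := hf k hk
  rw [PowerSeries.coeff_C_mul, hab k hk] at h
  exact mul_left_cancel₀ hc h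

theorem Approx.coeff_eq_zero (hf : Approx n f a) (ha : ∀ k < n, a.getD k 0 = 0) :
    ∀ k < n, f.coeff k = 0 := fun k hk => (hf k hk).trans (ha k hk)

end Fermat.Agent.Lib.Hauptmodul.Trunc
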