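/-
The four Hauptmodul identities between `E₄³`, `Δ`, `Δ(q^r)` as identities of integer power series,
by the Sturm bound on `Γ₀(2)`, `Γ₀(3)` (owner helper167).
-/
import Fermat.Agent.Lib.Hauptmodul.Defs
import Fermat.Agent.Lib.Hauptmodul.Trunc
import Fermat.Agent.S28.Analytic.QExpSpace
import Fermat.Agent.S16.LevelOneInt
import Fermat.Agent.Lib.Gamma0Cosets.Card

set_option autoImplicit false

noncomputable section

namespace Fermat.Agent.Lib.Hauptmodul

open ModularCurve Fermat.Agent.S28 Fermat.Agent.Lib.Hauptmodul.Trunc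

/-- coefficients `ℤ → ℚ` -/
abbrev cQ : PowerSeries ℤ →+* PowerSeries ℚ := PowerSeries.map (Int.castRingHom ℚ)

/-- formal `Δ` over `ℤ` -/
def DZ : PowerSeries ℤ := PowerSeries.X * dedekindEtaUnit

/-- `P ∈ ℤ[[q]]` is the `q`-expansion of a form of weight `12 m` on `Γ₀(N)` -/
def IsQZ (N m : ℕ) (P : PowerSeries ℤ) : Prop := IsQExp N m (cQ P)

namespace IsQZ

variable {N m m' : ℕ} [NeZero N] {P Q : PowerSeries ℤ}

theorem add (h : IsQZ N m P) (h' : IsQZ N m Q) : IsQZ N m (P + Q) := by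
  unfold IsQZ; rw [map_add]; exact IsQExp.add h h'

theorem cmul (c : ℤ) (h : IsQZ N m P) : IsQZ N m (PowerSeries.C c * P) := by
  unfold IsQZ
  have : cQ (PowerSeries.C c * P) = (c : ℚ) • cQ P := by
    rw [map_mul, PowerSeries.map_C, PowerSeries.smul_eq_C_mul]; rfl
  rw [this]; exact IsQExp.smul _ h

theorem sub (h : IsQZ N m P) (h' : IsQZ N m Q) : IsQZ N m (P - Q) := by
  have : P - Q = P + PowerSeries.C (-1) * Q := by
    rw [map_neg, map_one]; ring
  rw [this]; exact h.add (h'.cmul _)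

theorem mul (h : IsQZ N m P) (h' : IsQZ N m' Q) : IsQZ N (m + m') (P * Q) := by
  unfold IsQZ; rw [map_mul]; exact IsQExp.mul h h'

theorem pow (h : IsQZ N m P) (k : ℕ) : IsQZ N (k * m) (P ^ k) := by
  unfold IsQZ; rw [map_pow]; exact IsQExp.pow h k

theorem eq_zero (h : IsQZ N m P)
    (h0 : ∀ k ≤ m * (CongruenceSubgroup.Gamma0 N).index, P.coeff k = 0) : P = 0 := by
  have h1 : cQ P = 0 := IsQExp.eq_zero h fun k hk => by
    rw [PowerSeries.coeff_map, h0 k hk, map_zero]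
  exact PowerSeries.map_injective (Int.castRingHom ℚ) (Int.cast_injective (α := ℚ))
    (by rw [h1, map_zero])

end IsQZ

theorem dil_cQ (d : ℕ) (P : PowerSeries ℤ) : QExpSpace.dil d (cQ P) = cQ (dilZ d P) := by
  ext k
  simp only [QExpSpace.dil, dilZ, PowerSeries.coeff_mk, PowerSeries.coeff_map]
  split_ifs <;> simp

theorem isQZ_E (N d : ℕ) [NeZero N] [NeZero d] (hd : d ∣ N) :
    IsQZ N 1 (dilZ d (eisenstein4 ^ 3)) := by
  unfold IsQZ
  rw [← dil_cQ]
  have := QExpSpace.isQExp_dil N d hd (LevelOnePoly.E4pow 1 (by norm_num)) (E4S ℚ ^ 3) (by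
    rw [LevelOnePoly.qExpansion_E4pow, qExpansion_E4, mul_one, map_pow, E4S, E4S,
      QExpSpace.map_map_int])
  rwa [E4S, ← map_pow] at this

theorem isQZ_D (N d : ℕ) [NeZero N] [NeZero d] (hd : d ∣ N) : IsQZ N 1 (dilZ d DZ) := by
  unfold IsQZ
  rw [← dil_cQ]
  exact QExpSpace.isQExp_dil N d hd Fermat.Agent.S23.DeltaMF (DeltaS ℚ) (by
    rw [Fermat.Agent.S23.coe_DeltaMF, qExpansion_Delta, DeltaS, DeltaS, QExpSpace.map_map_int])

theorem dilZ_one_eq (P : PowerSeries ℤ) : dilZ 1 P = P := by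
  ext k; simp [dilZ]

/-! ### coefficient lists -/

def lE4 : List ℤ := [1, 240, 2160, 6720, 17520, 30240, 60480, 82560, 140400, 181680, 272160,
  319680, 490560, 527520, 743040, 846720, 1123440]

def lE6 : List ℤ := [1, -504, -16632, -122976, -532728, -1575504, -4058208, -8471232, -17047800,
  -29883672, -51991632, -81170208, -129985632, -187132176, -279550656, -384422976, -545530104]

def lD : List ℤ := [0, 1, -24, 252, -1472, 4830, -6048, -16744, 84480, -113643, -115920, 534612,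
  -370944, -577738, 401856, 1217160, 987136]

theorem approx_E4 : Approx 17 eisenstein4 lE4 := by
  intro k hk
  rw [eisenstein4, PowerSeries.coeff_mk]
  revert k
  decide +kernel

theorem approx_E6 : Approx 17 Fermat.Agent.S16.SturmZ.E6Z lE6 := by
  intro k hk
  rw [Fermat.Agent.S16.SturmZ.coeff_E6Z, ArithmeticFunction.sigma_apply]
  revert k
  decide +kernel

theorem E4Z_eq : Fermat.Agent.S16.SturmZ.E4Z = eisenstein4 := by
  ext k
  rw [Fermat.Agent.S16.SturmZ.coeff_E4Z, ArithmeticFunction.sigma_apply, eisenstein4,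
    PowerSeries.coeff_mk]
  push_cast
  rfl

theorem DeltaZ_eq : Fermat.Agent.S16.SturmZ.DeltaZ = DZ := by
  apply PowerSeries.map_injective (Int.castRingHom ℂ) (Int.cast_injective (α := ℂ))
  have h1 := Fermat.Agent.S16.SturmZ.qExpansion_discriminant
  have h2 := Fermat.Agent.S28.qExpansion_Delta
  rw [h1] at h2
  exact h2

theorem C_mul_DZ : PowerSeries.C (1728 : ℤ) * DZ
    = eisenstein4 ^ 3 - Fermat.Agent.S16.SturmZ.E6Z ^ 2 := by
  rw [← E4Z_eq, ← DeltaZ_eq, ← Fermat.Agent.S16.SturmZ.DeltaZ_mul]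
  congr 1

theorem approx_D : Approx 17 DZ lD := by
  refine Approx.of_smul (c := 1728) (by norm_num) (b := subT 17 (powT 17 lE4 3) (powT 17 lE6 2))
    ?_ (by decide +kernel)
  rw [C_mul_DZ]
  exact (approx_E4.pow 3).sub (approx_E6.pow 2)

theorem index_two : (CongruenceSubgroup.Gamma0 2).index = 3 := by
  rw [Fermat.Agent.Lib.Gamma0Cosets.index_Gamma0]
  decide +kernel

theorem index_three : (CongruenceSubgroup.Gamma0 3).index = 4 := by
  rw [Fermat.Agent.Lib.Gamma0Cosets.index_Gamma0]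
  decide +kernel

theorem approx_dilZ {n : ℕ} {f : PowerSeries ℤ} {a : List ℤ} (d : ℕ) (hd : 0 < d)
    (hf : Approx n f a) : Approx n (dilZ d f) (dilT n d a) :=
  Approx.dil d hd hf

local notation "E3" => (eisenstein4 ^ 3 : PowerSeries ℤ)
local notation "cc" => (PowerSeries.C : ℤ →+* PowerSeries ℤ)

theorem isQZ_E3 (N : ℕ) [NeZero N] : IsQZ N 1 E3 := by
  have := isQZ_E N 1 (one_dvd N)
  rwa [dilZ_one_eq] at this

theorem isQZ_DZ (N : ℕ) [NeZero N] : IsQZ N 1 DZ := by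
  have := isQZ_D N 1 (one_dvd N)
  rwa [dilZ_one_eq] at this

theorem sturm2a : E3 * DZ * dilZ 2 DZ = (DZ + cc 256 * dilZ 2 DZ) ^ 3 := by
  rw [← sub_eq_zero]
  have hq : IsQZ 2 3 (E3 * DZ * dilZ 2 DZ - (DZ + cc 256 * dilZ 2 DZ) ^ 3) :=
    (((isQZ_E3 2).mul (isQZ_DZ 2)).mul (isQZ_D 2 2 dvd_rfl)).sub
      (((isQZ_DZ 2).add ((isQZ_D 2 2 dvd_rfl).cmul 256)).pow 3)
  refine hq.eq_zero fun k hk => ?_
  rw [index_two] at hk
  have hD2 := approx_dilZ 2 (by norm_num) approx_D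
  exact Approx.coeff_eq_zero
    ((((approx_E4.pow 3).mul approx_D).mul hD2).sub ((approx_D.add (hD2.smul 256)).pow 3))
    (by decide +kernel) k (by omega)

theorem sturm2b : dilZ 2 E3 * DZ * dilZ 2 DZ = (DZ + cc 16 * dilZ 2 DZ) ^ 3 := by
  rw [← sub_eq_zero]
  have hq : IsQZ 2 3 (dilZ 2 E3 * DZ * dilZ 2 DZ - (DZ + cc 16 * dilZ 2 DZ) ^ 3) :=
    (((isQZ_E 2 2 dvd_rfl).mul (isQZ_DZ 2)).mul (isQZ_D 2 2 dvd_rfl)).sub
      (((isQZ_DZ 2).add ((isQZ_D 2 2 dvd_rfl).cmul 16)).pow 3)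
  refine hq.eq_zero fun k hk => ?_
  rw [index_two] at hk
  have hD2 := approx_dilZ 2 (by norm_num) approx_D
  exact Approx.coeff_eq_zero
    ((((approx_dilZ 2 (by norm_num) (approx_E4.pow 3)).mul approx_D).mul hD2).sub
      ((approx_D.add (hD2.smul 16)).pow 3))
    (by decide +kernel) k (by omega)

theorem sturm3a : DZ * dilZ 3 DZ * (E3 - cc 756 * DZ - cc 19131876 * dilZ 3 DZ) ^ 2
    = (DZ ^ 2 + cc 196830 * (DZ * dilZ 3 DZ) + cc 387420489 * dilZ 3 DZ ^ 2) ^ 2 := by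
  rw [← sub_eq_zero]
  have h3 := isQZ_D 3 3 dvd_rfl
  have hq : IsQZ 3 4 (DZ * dilZ 3 DZ * (E3 - cc 756 * DZ - cc 19131876 * dilZ 3 DZ) ^ 2
      - (DZ ^ 2 + cc 196830 * (DZ * dilZ 3 DZ) + cc 387420489 * dilZ 3 DZ ^ 2) ^ 2) :=
    (((isQZ_DZ 3).mul h3).mul ((((isQZ_E3 3).sub ((isQZ_DZ 3).cmul 756)).sub
      (h3.cmul 19131876)).pow 2)).sub
      (((((isQZ_DZ 3).pow 2).add (((isQZ_DZ 3).mul h3).cmul 196830)).add
        ((h3.pow 2).cmul 387420489)).pow 2)
  refine hq.eq_zero fun k hk => ?_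
  rw [index_three] at hk
  have hD3 := approx_dilZ 3 (by norm_num) approx_D
  exact Approx.coeff_eq_zero
    (((approx_D.mul hD3).mul ((((approx_E4.pow 3).sub (approx_D.smul 756)).sub
      (hD3.smul 19131876)).pow 2)).sub
      ((((approx_D.pow 2).add ((approx_D.mul hD3).smul 196830)).add
        ((hD3.pow 2).smul 387420489)).pow 2))
    (by decide +kernel) k (by omega)

theorem sturm3b : DZ * dilZ 3 DZ * (dilZ 3 E3 - cc 36 * DZ - cc 756 * dilZ 3 DZ) ^ 2
    = (DZ ^ 2 + cc 270 * (DZ * dilZ 3 DZ) + cc 729 * dilZ 3 DZ ^ 2) ^ 2 := by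
  rw [← sub_eq_zero]
  have h3 := isQZ_D 3 3 dvd_rfl
  have hq : IsQZ 3 4 (DZ * dilZ 3 DZ * (dilZ 3 E3 - cc 36 * DZ - cc 756 * dilZ 3 DZ) ^ 2
      - (DZ ^ 2 + cc 270 * (DZ * dilZ 3 DZ) + cc 729 * dilZ 3 DZ ^ 2) ^ 2) :=
    (((isQZ_DZ 3).mul h3).mul ((((isQZ_E 3 3 dvd_rfl).sub ((isQZ_DZ 3).cmul 36)).sub
      (h3.cmul 756)).pow 2)).sub
      (((((isQZ_DZ 3).pow 2).add (((isQZ_DZ 3).mul h3).cmul 270)).add
        ((h3.pow 2).cmul 729)).pow 2)
  refine hq.eq_zero fun k hk => ?_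
  rw [index_three] at hk
  have hD3 := approx_dilZ 3 (by norm_num) approx_D
  exact Approx.coeff_eq_zero
    (((approx_D.mul hD3).mul ((((approx_dilZ 3 (by norm_num) (approx_E4.pow 3)).sub
      (approx_D.smul 36)).sub (hD3.smul 756)).pow 2)).sub
      ((((approx_D.pow 2).add ((approx_D.mul hD3).smul 270)).add
        ((hD3.pow 2).smul 729)).pow 2))
    (by decide +kernel) k (by omega)

end Fermat.Agent.Lib.Hauptmodul
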