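/-
Hauptmodul identities for the unit parts, in `ℤ[[q]]` (owner helper167).
-/
import Fermat.Agent.Lib.Hauptmodul.Sturm
import Fermat.Agent.Lib.Hauptmodul.Basic

set_option autoImplicit false

noncomputable section

namespace Fermat.Agent.Lib.Hauptmodul

open ModularCurve

local notation "E3" => (eisenstein4 ^ 3 : PowerSeries ℤ)
local notation "cc" => (PowerSeries.C : ℤ →+* PowerSeries ℤ)
local notation "XX" => (PowerSeries.X : PowerSeries ℤ)
local notation "ee" => (etaProd : PowerSeries ℤ)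

theorem DZ_eq : DZ = XX * ee ^ 24 := rfl

theorem dilZ_DZ (r : ℕ) [NeZero r] : dilZ r DZ = XX ^ r * dilZ r ee ^ 24 := by
  rw [DZ_eq, dilZ_mul, dilZ_X, dilZ_pow]

theorem identZ2a : E3 * ee ^ 24 * dilZ 2 ee ^ 24
    = (ee ^ 24 + cc 256 * XX * dilZ 2 ee ^ 24) ^ 3 := by
  have h := sturm2a
  rw [dilZ_DZ, DZ_eq] at h
  apply mul_left_cancel₀ (pow_ne_zero 3 (PowerSeries.X_ne_zero (R := ℤ)))
  linear_combination h

theorem identZ2b : dilZ 2 E3 * ee ^ 24 * dilZ 2 ee ^ 24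
    = (ee ^ 24 + cc 16 * XX * dilZ 2 ee ^ 24) ^ 3 := by
  have h := sturm2b
  rw [dilZ_DZ, DZ_eq] at h
  apply mul_left_cancel₀ (pow_ne_zero 3 (PowerSeries.X_ne_zero (R := ℤ)))
  linear_combination h

/-- extraction of the square root: the sign is fixed by the constant coefficients -/
theorem eq_of_sq_eq_sq {P Q : PowerSeries ℤ} (h : P ^ 2 = Q ^ 2)
    (hP : PowerSeries.constantCoeff P = 1) (hQ : PowerSeries.constantCoeff Q = 1) : P = Q := by
  rcases sq_eq_sq_iff_eq_or_eq_neg.mp h with h | h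
  · exact h
  · exfalso
    have := congrArg (PowerSeries.constantCoeff (R := ℤ)) h
    rw [map_neg, hP, hQ] at this
    omega

theorem constantCoeff_E3 : PowerSeries.constantCoeff E3 = 1 := by
  rw [map_pow, constantCoeff_eisenstein4, one_pow]

theorem identZ3a : E3 * ee ^ 12 * dilZ 3 ee ^ 12
    = (ee ^ 12 + cc 27 * XX * dilZ 3 ee ^ 12) * (ee ^ 12 + cc 243 * XX * dilZ 3 ee ^ 12) ^ 3 := by
  have h := sturm3a
  rw [dilZ_DZ, DZ_eq] at h
  have key : ee ^ 12 * dilZ 3 ee ^ 12 *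
      (E3 - cc 756 * (XX * ee ^ 24) - cc 19131876 * (XX ^ 3 * dilZ 3 ee ^ 24))
      = ee ^ 48 + cc 196830 * (XX ^ 2 * ee ^ 24 * dilZ 3 ee ^ 24)
        + cc 387420489 * (XX ^ 4 * dilZ 3 ee ^ 48) := by
    apply eq_of_sq_eq_sq
    · apply mul_left_cancel₀ (pow_ne_zero 4 (PowerSeries.X_ne_zero (R := ℤ)))
      linear_combination h
    · simp [constantCoeff_etaProd, constantCoeff_dilZ]
    · simp [constantCoeff_etaProd, constantCoeff_dilZ]
  have c27 : cc 27 = 27 := map_ofNat cc 27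
  have c243 : cc 243 = 243 := map_ofNat cc 243
  have c756 : cc 756 = 756 := map_ofNat cc 756
  have c1 : cc 19131876 = 19131876 := map_ofNat cc 19131876
  have c2 : cc 196830 = 196830 := map_ofNat cc 196830
  have c3 : cc 387420489 = 387420489 := map_ofNat cc 387420489
  rw [c756, c1, c2, c3] at key
  rw [c27, c243]
  linear_combination key

theorem identZ3b : dilZ 3 E3 * ee ^ 12 * dilZ 3 ee ^ 12
    = (ee ^ 12 + cc 27 * XX * dilZ 3 ee ^ 12) * (ee ^ 12 + cc 3 * XX * dilZ 3 ee ^ 12) ^ 3 := by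
  have h := sturm3b
  rw [dilZ_DZ, DZ_eq] at h
  have key : ee ^ 12 * dilZ 3 ee ^ 12 *
      (dilZ 3 E3 - cc 36 * (XX * ee ^ 24) - cc 756 * (XX ^ 3 * dilZ 3 ee ^ 24))
      = ee ^ 48 + cc 270 * (XX ^ 2 * ee ^ 24 * dilZ 3 ee ^ 24)
        + cc 729 * (XX ^ 4 * dilZ 3 ee ^ 48) := by
    apply eq_of_sq_eq_sq
    · apply mul_left_cancel₀ (pow_ne_zero 4 (PowerSeries.X_ne_zero (R := ℤ)))
      linear_combination h
    · simp [constantCoeff_etaProd, constantCoeff_dilZ]
    · simp [constantCoeff_etaProd, constantCoeff_dilZ]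
  have c27 : cc 27 = 27 := map_ofNat cc 27
  have c3 : cc 3 = 3 := map_ofNat cc 3
  have c36 : cc 36 = 36 := map_ofNat cc 36
  have c756 : cc 756 = 756 := map_ofNat cc 756
  have c270 : cc 270 = 270 := map_ofNat cc 270
  have c729 : cc 729 = 729 := map_ofNat cc 729
  rw [c36, c756, c270, c729] at key
  rw [c27, c3]
  linear_combination key

end Fermat.Agent.Lib.Hauptmodul
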