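/-
Hauptmodul identities (owner helper167).  Proof: Sturm bound on `Γ₀(2)`, `Γ₀(3)` (see `Sturm.lean`,
`IdentZ.lean`).
-/
import Fermat.Agent.Lib.Hauptmodul.IdentZ

set_option autoImplicit false

noncomputable section

namespace Fermat.Agent.Lib.Hauptmodul

open ModularCurve

local notation "E3" => (eisenstein4 ^ 3 : PowerSeries ℤ)
local notation "XX" => (PowerSeries.X : PowerSeries ℤ)
local notation "ee" => (etaProd : PowerSeries ℤ)
local notation "τ" => toL ℚ

theorem Identities.toL_X_ne_zero : τ XX ≠ 0 := by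
  rw [toL_X]
  exact HahnSeries.single_ne_zero one_ne_zero

theorem Identities.toL_ne_zero {P : PowerSeries ℤ} (hP : PowerSeries.constantCoeff P = 1) :
    τ P ≠ 0 := by
  intro h
  have := toL_mul_toL_invOfUnit ℚ P hP
  rw [h, zero_mul] at this
  exact zero_ne_one this

/-- `j(q^r) * Δ(q^r) = E₄(q^r)^3` -/
theorem Identities.jqr_mul (r : ℕ) [NeZero r] :
    qExpand ℚ r jq * (τ XX ^ r * τ (dilZ r ee) ^ 24) = τ (dilZ r E3) := by
  have h1 : dilZ r E3 = dilZ r jNum * dilZ r ee ^ 24 := by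
    rw [← dilZ_pow, ← dilZ_mul]
    congr 1
    have := dedekindEtaUnit_mul_inv
    rw [dedekindEtaUnit] at this
    rw [jNum, mul_assoc, mul_comm dedekindEtaUnitInv, this, mul_one]
  have h2 : qExpand ℚ r jq = HahnSeries.single (-(r : ℤ)) 1 * τ (dilZ r jNum) := by
    rw [jq_eq, map_mul, qExpand_single, toL_dilZ, mul_neg_one]
  have h3 : HahnSeries.single (-(r : ℤ)) (1 : ℚ) * τ XX ^ r = 1 := by
    rw [toL_X, HahnSeries.single_pow, HahnSeries.single_mul_single]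
    simp
  rw [h1, map_mul, map_pow, h2]
  linear_combination (τ (dilZ r jNum) * τ (dilZ r ee) ^ 24) * h3

theorem Identities.jq_mul' : jq * (τ XX * τ ee ^ 24) = τ E3 := by
  have := Identities.jqr_mul 1
  rwa [qExpand_one_apply, dilZ_one_eq, dilZ_one_eq, pow_one] at this

theorem Identities.h2q_mul : h2q * τ ee ^ 24 = τ XX * τ (dilZ 2 ee) ^ 24 := by
  have h : τ ee * τ etaProdInv = 1 := by rw [← map_mul, etaProd_mul_inv, map_one]
  rw [h2q, h2Z, u2Z, map_mul, map_pow, map_mul]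
  calc τ XX * (τ (dilZ 2 ee) * τ etaProdInv) ^ 24 * τ ee ^ 24
      = τ XX * τ (dilZ 2 ee) ^ 24 * (τ ee * τ etaProdInv) ^ 24 := by ring
    _ = _ := by rw [h, one_pow, mul_one]

theorem Identities.h3q_mul : h3q * τ ee ^ 12 = τ XX * τ (dilZ 3 ee) ^ 12 := by
  have h : τ ee * τ etaProdInv = 1 := by rw [← map_mul, etaProd_mul_inv, map_one]
  rw [h3q, h3Z, u3Z, map_mul, map_pow, map_mul]
  calc τ XX * (τ (dilZ 3 ee) * τ etaProdInv) ^ 12 * τ ee ^ 12
      = τ XX * τ (dilZ 3 ee) ^ 12 * (τ ee * τ etaProdInv) ^ 12 := by ring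
    _ = _ := by rw [h, one_pow, mul_one]

theorem Identities.toL_C (c : ℤ) : τ (PowerSeries.C c) = (c : LaurentSeries ℚ) := by
  have : (PowerSeries.C c : PowerSeries ℤ) = (c : PowerSeries ℤ) := by simp
  rw [this, map_intCast]

theorem jq_mul_h2q : jq * h2q = (1 + 256 * h2q) ^ 3 := by
  have hx := Identities.toL_X_ne_zero
  have hu : τ ee ≠ 0 := Identities.toL_ne_zero constantCoeff_etaProd
  have hj := Identities.jq_mul'
  have hh := Identities.h2q_mul
  have H := congrArg τ identZ2a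
  simp only [map_mul, map_pow, map_add, Identities.toL_C] at H
  push_cast at H
  set x := τ XX
  set u := τ ee
  set w := τ (dilZ 2 ee)
  set E := τ eisenstein4
  apply mul_left_cancel₀ (mul_ne_zero hx (pow_ne_zero 72 hu))
  have e1 : x * u ^ 72 * (jq * h2q) = u ^ 24 * (jq * (x * u ^ 24)) * (h2q * u ^ 24) := by ring
  have e2 : x * u ^ 72 * (1 + 256 * h2q) ^ 3 = x * (u ^ 24 + 256 * (h2q * u ^ 24)) ^ 3 := by ring
  rw [e1, e2, hj, hh, map_pow]
  linear_combination x * H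

theorem jq2_mul_h2q : qExpand ℚ 2 jq * h2q ^ 2 = (1 + 16 * h2q) ^ 3 := by
  have hx := Identities.toL_X_ne_zero
  have hu : τ ee ≠ 0 := Identities.toL_ne_zero constantCoeff_etaProd
  have hw : τ (dilZ 2 ee) ≠ 0 :=
    Identities.toL_ne_zero (by rw [constantCoeff_dilZ, constantCoeff_etaProd])
  have hj := Identities.jqr_mul 2
  have hh := Identities.h2q_mul
  have H := congrArg τ identZ2b
  simp only [map_mul, map_pow, map_add, Identities.toL_C] at H
  push_cast at H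
  set x := τ XX
  set u := τ ee
  set w := τ (dilZ 2 ee)
  set E := τ (dilZ 2 E3)
  set j2 := qExpand ℚ 2 jq
  apply mul_left_cancel₀ (mul_ne_zero (mul_ne_zero (pow_ne_zero 2 hx) (pow_ne_zero 24 hw))
    (pow_ne_zero 72 hu))
  have e1 : x ^ 2 * w ^ 24 * u ^ 72 * (j2 * h2q ^ 2)
      = u ^ 24 * (j2 * (x ^ 2 * w ^ 24)) * (h2q * u ^ 24) ^ 2 := by ring
  have e2 : x ^ 2 * w ^ 24 * u ^ 72 * (1 + 16 * h2q) ^ 3
      = x ^ 2 * w ^ 24 * (u ^ 24 + 16 * (h2q * u ^ 24)) ^ 3 := by ring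
  rw [e1, e2, hj, hh]
  linear_combination x ^ 2 * w ^ 24 * H

theorem jq_mul_h3q : jq * h3q = (1 + 27 * h3q) * (1 + 243 * h3q) ^ 3 := by
  have hx := Identities.toL_X_ne_zero
  have hu : τ ee ≠ 0 := Identities.toL_ne_zero constantCoeff_etaProd
  have hj := Identities.jq_mul'
  have hh := Identities.h3q_mul
  have H := congrArg τ identZ3a
  simp only [map_mul, map_pow, map_add, Identities.toL_C] at H
  push_cast at H
  set x := τ XX
  set u := τ ee
  set w := τ (dilZ 3 ee)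
  set E := τ eisenstein4
  apply mul_left_cancel₀ (mul_ne_zero hx (pow_ne_zero 48 hu))
  have e1 : x * u ^ 48 * (jq * h3q) = u ^ 12 * (jq * (x * u ^ 24)) * (h3q * u ^ 12) := by ring
  have e2 : x * u ^ 48 * ((1 + 27 * h3q) * (1 + 243 * h3q) ^ 3)
      = x * ((u ^ 12 + 27 * (h3q * u ^ 12)) * (u ^ 12 + 243 * (h3q * u ^ 12)) ^ 3) := by ring
  rw [e1, e2, hj, hh, map_pow]
  linear_combination x * H

theorem jq3_mul_h3q : qExpand ℚ 3 jq * h3q ^ 3 = (1 + 27 * h3q) * (1 + 3 * h3q) ^ 3 := by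
  have hx := Identities.toL_X_ne_zero
  have hu : τ ee ≠ 0 := Identities.toL_ne_zero constantCoeff_etaProd
  have hw : τ (dilZ 3 ee) ≠ 0 :=
    Identities.toL_ne_zero (by rw [constantCoeff_dilZ, constantCoeff_etaProd])
  have hj := Identities.jqr_mul 3
  have hh := Identities.h3q_mul
  have H := congrArg τ identZ3b
  simp only [map_mul, map_pow, map_add, Identities.toL_C] at H
  push_cast at H
  set x := τ XX
  set u := τ ee
  set w := τ (dilZ 3 ee)
  set E := τ (dilZ 3 E3)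
  set j3 := qExpand ℚ 3 jq
  apply mul_left_cancel₀ (mul_ne_zero (mul_ne_zero (pow_ne_zero 3 hx) (pow_ne_zero 24 hw))
    (pow_ne_zero 48 hu))
  have e1 : x ^ 3 * w ^ 24 * u ^ 48 * (j3 * h3q ^ 3)
      = u ^ 12 * (j3 * (x ^ 3 * w ^ 24)) * (h3q * u ^ 12) ^ 3 := by ring
  have e2 : x ^ 3 * w ^ 24 * u ^ 48 * ((1 + 27 * h3q) * (1 + 3 * h3q) ^ 3)
      = x ^ 3 * w ^ 24 * ((u ^ 12 + 27 * (h3q * u ^ 12)) * (u ^ 12 + 3 * (h3q * u ^ 12)) ^ 3) := by
    ring
  rw [e1, e2, hj, hh]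
  linear_combination x ^ 3 * w ^ 24 * H

theorem jq_sub_mul_h2q : (jq - 1728) * h2q = (1 + 64 * h2q) * (1 - 512 * h2q) ^ 2 := by
  linear_combination jq_mul_h2q

theorem jq_sub_mul_h3q : (jq - 1728) * h3q = (1 - 486 * h3q - 19683 * h3q ^ 2) ^ 2 := by
  linear_combination jq_mul_h3q

end Fermat.Agent.Lib.Hauptmodul
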