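/-
Leading terms of the monomials `j(q)^i * j(q^r)^k`.
-/
import Fermat.Agent.Lib.Hauptmodul.Defs

set_option autoImplicit false

noncomputable section

namespace Fermat.Agent.Lib.Hauptmodul

open ModularCurve

/-- lowest terms of a product of two Laurent series -/
theorem Mono.aux_coeff_mul {f g : LaurentSeries ℚ} {a b : ℤ} (hf : ∀ m < a, f.coeff m = 0)
    (hg : ∀ m < b, g.coeff m = 0) :
    (∀ m < a + b, (f * g).coeff m = 0) ∧ (f * g).coeff (a + b) = f.coeff a * g.coeff b := by
  have hf' : ∀ m ∈ f.support, a ≤ m := by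
    intro m hm
    by_contra hlt
    exact hm (hf _ (not_le.mp hlt))
  have hg' : ∀ m ∈ g.support, b ≤ m := by
    intro m hm
    by_contra hlt
    exact hm (hg _ (not_le.mp hlt))
  constructor
  · intro m hm
    rw [HahnSeries.coeff_mul]
    apply Finset.sum_eq_zero
    intro ij h
    simp only [Finset.mem_antidiagonal] at h
    have h1 := hf' _ h.1
    have h2 := hg' _ h.2.1
    have h3 := h.2.2
    omega
  · rw [HahnSeries.coeff_mul]
    rw [Finset.sum_eq_single (a, b)]
    · intro ij h hne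
      simp only [Finset.mem_antidiagonal] at h
      have h1 := hf' _ h.1
      have h2 := hg' _ h.2.1
      have h3 := h.2.2
      exfalso
      apply hne
      ext <;> simp <;> omega
    · intro h
      simp only [Finset.mem_antidiagonal, HahnSeries.mem_support, ne_eq, and_true, not_and_or,
        not_not] at h
      rcases h with h | h <;> simp [h]

theorem Mono.aux_qExpand_of_lt (r : ℕ) [NeZero r] (k : ℕ) {m : ℤ} (hm : m < -((r : ℤ) * k)) :
    (qExpand ℚ r jq ^ k).coeff m = 0 := by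
  rw [← map_pow]
  by_cases hd : (r : ℤ) ∣ m
  · obtain ⟨m', rfl⟩ := hd
    rw [qExpand_coeff_mul]
    apply coeff_jq_pow_of_lt
    have hr : (0 : ℤ) < r := by exact_mod_cast NeZero.pos r
    by_contra hcon
    have : -(k : ℤ) ≤ m' := not_lt.mp hcon
    nlinarith
  · exact qExpand_coeff_of_not_dvd r _ hd

theorem Mono.aux_qExpand_self (r : ℕ) [NeZero r] (k : ℕ) :
    (qExpand ℚ r jq ^ k).coeff (-((r : ℤ) * k)) = 1 := by
  rw [← map_pow, show -((r : ℤ) * k) = (r : ℤ) * (-(k : ℤ)) by ring, qExpand_coeff_mul,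
    coeff_jq_pow_self]

theorem coeff_mono_of_lt (r : ℕ) [NeZero r] (i k : ℕ) {m : ℤ} (hm : m < -((i : ℤ) + r * k)) :
    (jq ^ i * qExpand ℚ r jq ^ k).coeff m = 0 := by
  refine (Mono.aux_coeff_mul (a := -(i : ℤ)) (b := -((r : ℤ) * k))
    (fun m hm => coeff_jq_pow_of_lt hm) (fun m hm => Mono.aux_qExpand_of_lt r k hm)).1 m ?_
  omega

theorem coeff_mono_self (r : ℕ) [NeZero r] (i k : ℕ) :
    (jq ^ i * qExpand ℚ r jq ^ k).coeff (-((i : ℤ) + r * k)) = 1 := by
  have := (Mono.aux_coeff_mul (a := -(i : ℤ)) (b := -((r : ℤ) * k))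
    (fun m hm => coeff_jq_pow_of_lt hm) (fun m hm => Mono.aux_qExpand_of_lt r k hm)).2
  rw [coeff_jq_pow_self, Mono.aux_qExpand_self, one_mul] at this
  rw [← this]
  congr 1
  ring

/-- coefficient of a rational multiple -/
theorem coeff_algebraMap_mul (c : ℚ) (x : LaurentSeries ℚ) (m : ℤ) :
    (algebraMap ℚ (LaurentSeries ℚ) c * x).coeff m = c * x.coeff m := by
  rw [algebraMap_apply_eq_single, HahnSeries.coeff_single_mul, sub_zero]

end Fermat.Agent.Lib.Hauptmodul
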