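/-
`h_2 ∈ ℚ(j(q), j(q^2))`: elimination + a leading coefficient computation.
-/
import Fermat.Agent.Lib.Hauptmodul.Identities
import Fermat.Agent.Lib.Hauptmodul.Mono

set_option autoImplicit false

noncomputable section

namespace Fermat.Agent.Lib.Hauptmodul

open ModularCurve

/-- pure algebra: elimination of `h` from the two relations -/
theorem elim2 {L : Type*} [Field L] (a b h : L) (H1 : a * h = (1 + 256 * h) ^ 3)
    (H2 : b * h ^ 2 = (1 + 16 * h) ^ 3) :
    h * (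
      -(a * b ^ 2) + 768 * b ^ 2 + 1488 * (a * b) + 25067520 * b + a ^ 2 - 161280 * a +
      19906560000)
      + (
      b ^ 2 + 195120 * b + 4095 * a + 660960000) = 0 := by
  linear_combination
    (-(
      (b ^ 2 - 1488 * b - a + 357120) + (-4096 * b + 2949120) * h)) * H1
    + (-(
      (196608 * b + 4096 * a + 660602880) + (16777216 * b - 12079595520) * h)) * H2

/-- the denominator does not vanish: its coefficient of `q^(-5)` is `-1` -/
theorem den2_ne_zero :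
    (
      -(jq * qExpand ℚ 2 jq ^ 2) + 768 * qExpand ℚ 2 jq ^ 2 + 1488 * (jq * qExpand ℚ 2 jq) +
      25067520 * qExpand ℚ 2 jq + jq ^ 2 - 161280 * jq + 19906560000
      : LaurentSeries ℚ) ≠ 0 := by
  intro h
  have e : (
      -(jq * qExpand ℚ 2 jq ^ 2) + 768 * qExpand ℚ 2 jq ^ 2 + 1488 * (jq * qExpand ℚ 2 jq) +
      25067520 * qExpand ℚ 2 jq + jq ^ 2 - 161280 * jq + 19906560000
      : LaurentSeries ℚ) =
      algebraMap ℚ (LaurentSeries ℚ) (-1) * (jq ^ 1 * qExpand ℚ 2 jq ^ 2) +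
      algebraMap ℚ (LaurentSeries ℚ) 768 * (jq ^ 0 * qExpand ℚ 2 jq ^ 2) +
      algebraMap ℚ (LaurentSeries ℚ) 1488 * (jq ^ 1 * qExpand ℚ 2 jq ^ 1) +
      algebraMap ℚ (LaurentSeries ℚ) 25067520 * (jq ^ 0 * qExpand ℚ 2 jq ^ 1) +
      algebraMap ℚ (LaurentSeries ℚ) 1 * (jq ^ 2 * qExpand ℚ 2 jq ^ 0) +
      algebraMap ℚ (LaurentSeries ℚ) (-161280) * (jq ^ 1 * qExpand ℚ 2 jq ^ 0) +
      algebraMap ℚ (LaurentSeries ℚ) 19906560000 * (jq ^ 0 * qExpand ℚ 2 jq ^ 0) := by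
    simp only [map_neg, map_one, map_ofNat]
    ring
  have h5 := congrArg (fun x : LaurentSeries ℚ => x.coeff (-5)) h
  simp only [e, HahnSeries.coeff_add, coeff_algebraMap_mul, HahnSeries.coeff_zero] at h5
  have c1 : (jq ^ 1 * qExpand ℚ 2 jq ^ 2).coeff (-5) = 1 := by
    have := coeff_mono_self 2 1 2
    norm_num at this
    simpa using this
  have c2 : (jq ^ 0 * qExpand ℚ 2 jq ^ 2).coeff (-5) = 0 := coeff_mono_of_lt 2 0 2 (by norm_num)
  have c3 : (jq ^ 1 * qExpand ℚ 2 jq ^ 1).coeff (-5) = 0 := coeff_mono_of_lt 2 1 1 (by norm_num)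
  have c4 : (jq ^ 0 * qExpand ℚ 2 jq ^ 1).coeff (-5) = 0 := coeff_mono_of_lt 2 0 1 (by norm_num)
  have c5 : (jq ^ 2 * qExpand ℚ 2 jq ^ 0).coeff (-5) = 0 := coeff_mono_of_lt 2 2 0 (by norm_num)
  have c6 : (jq ^ 1 * qExpand ℚ 2 jq ^ 0).coeff (-5) = 0 := coeff_mono_of_lt 2 1 0 (by norm_num)
  have c7 : (jq ^ 0 * qExpand ℚ 2 jq ^ 0).coeff (-5) = 0 := coeff_mono_of_lt 2 0 0 (by norm_num)
  rw [c1, c2, c3, c4, c5, c6, c7] at h5
  norm_num at h5

theorem h2q_mem : h2q ∈ modularFunctionFieldFull 2 := by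
  have hj : jq ∈ modularFunctionFieldFull 2 := by
    have h := jqd_mem_full 2 (one_dvd 2)
    rwa [qExpand_one_apply] at h
  have hj2 : qExpand ℚ 2 jq ∈ modularFunctionFieldFull 2 := jqd_mem_full 2 dvd_rfl
  have hnat : ∀ n : ℕ, (n : LaurentSeries ℚ) ∈ modularFunctionFieldFull 2 := fun n =>
    natCast_mem _ n
  have hel := elim2 jq (qExpand ℚ 2 jq) h2q jq_mul_h2q jq2_mul_h2q
  have hden := den2_ne_zero
  set den : LaurentSeries ℚ :=
      -(jq * qExpand ℚ 2 jq ^ 2) + 768 * qExpand ℚ 2 jq ^ 2 + 1488 * (jq * qExpand ℚ 2 jq) +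
      25067520 * qExpand ℚ 2 jq + jq ^ 2 - 161280 * jq + 19906560000 with hdendef
  set num : LaurentSeries ℚ :=
      qExpand ℚ 2 jq ^ 2 + 195120 * qExpand ℚ 2 jq + 4095 * jq + 660960000 with hnumdef
  have hdenmem : den ∈ modularFunctionFieldFull 2 := by
    rw [hdendef]
    refine add_mem (sub_mem (add_mem (add_mem (add_mem (add_mem (neg_mem (mul_mem hj
      (pow_mem hj2 2))) (mul_mem ?_ (pow_mem hj2 2))) (mul_mem ?_ (mul_mem hj hj2)))
      (mul_mem ?_ hj2)) (pow_mem hj 2)) (mul_mem ?_ hj)) ?_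
    · exact_mod_cast hnat 768
    · exact_mod_cast hnat 1488
    · exact_mod_cast hnat 25067520
    · exact_mod_cast hnat 161280
    · exact_mod_cast hnat 19906560000
  have hnummem : num ∈ modularFunctionFieldFull 2 := by
    rw [hnumdef]
    refine add_mem (add_mem (add_mem (pow_mem hj2 2) (mul_mem ?_ hj2)) (mul_mem ?_ hj)) ?_
    · exact_mod_cast hnat 195120
    · exact_mod_cast hnat 4095
    · exact_mod_cast hnat 660960000
  have hh : h2q = -num / den := by
    rw [eq_div_iff hden]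
    linear_combination hel
  rw [hh]
  exact div_mem (neg_mem hnummem) hdenmem

end Fermat.Agent.Lib.Hauptmodul
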