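/-
`h_3 ∈ ℚ(j(q), j(q^3))`: elimination + a leading coefficient computation.
-/
import Fermat.Agent.Lib.Hauptmodul.Identities
import Fermat.Agent.Lib.Hauptmodul.Mono

set_option autoImplicit false

noncomputable section

namespace Fermat.Agent.Lib.Hauptmodul

open ModularCurve

/-- pure algebra: elimination of `h` from the two relations -/
theorem elim3 {L : Type*} [Field L] (a b h : L) (H1 : a * h = (1 + 27 * h) * (1 + 243 * h) ^ 3)
    (H2 : b * h ^ 3 = (1 + 27 * h) * (1 + 3 * h) ^ 3) :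
    h * (
      (a ^ 2 * b ^ 3) - 1512 * (a * b ^ 3) + 374706 * b ^ 3 - 2232 * (a ^ 2 * b ^ 2) -
      2202104637 * (a * b ^ 2) - 3513047559120 * b ^ 2 + 1069956 * (a ^ 2 * b) - 9457338111840
      * (a * b) + 572980708638720000 * b - a ^ 3 - 36864720 * a ^ 2 - 328219361280000 * a -
      2641807540224000000000)
      + (
      -(a * b ^ 3) + 756 * b ^ 3 - 19129644 * (a * b ^ 2) - 23150726640 * b ^ 2 - 76509442080 *
      (a * b) + 14204206448640000 * b - 531440 * a ^ 2 + 48430448640000 * a -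
      97844723712000000000) = 0 := by
  linear_combination
    (-(
      (-(a * b ^ 3) + 756 * b ^ 3 + 2232 * (a * b ^ 2) + 1127624004 * b ^ 2 - 1069956 * (a * b)
      + 7260113332800 * b + a ^ 2 + 17733600 * a + 1947040727040000) + (-196830 * b ^ 3 -
      18673419564 * b ^ 2 - 1066410768240 * b - 143292240 * a + 8794200637440000) * h +
      (143489070 * b ^ 2 + 531441 * (a * b) + 13720998829680 * b - 382637520 * a +
      10579162152960000) * h ^ 2)) * H1
    + (-(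
      (-19131876 * (a * b ^ 2) - 24278350644 * b ^ 2 - 76508372124 * (a * b) +
      14196946335307200 * b - 531441 * a ^ 2 + 48430430906400 * a - 97846670752727040000) +
      (-387420489 * (a * b ^ 2) - 3472837263396 * b ^ 2 + 557885504160 * (a * b) +
      56403061298832240 * b - 124687410179760 * a + 879191849883893760000) * h +
      (-76255974849870 * b ^ 2 - 282429536481 * (a * b) - 7291901339043968880 * b +
      203349266266320 * a - 5622200513731215360000) * h ^ 2)) * H2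

/-- the denominator does not vanish: its coefficient of `q^(-11)` is `1` -/
theorem den3_ne_zero :
    (
      (jq ^ 2 * qExpand ℚ 3 jq ^ 3) - 1512 * (jq * qExpand ℚ 3 jq ^ 3) + 374706 * qExpand ℚ 3
      jq ^ 3 - 2232 * (jq ^ 2 * qExpand ℚ 3 jq ^ 2) - 2202104637 * (jq * qExpand ℚ 3 jq ^ 2) -
      3513047559120 * qExpand ℚ 3 jq ^ 2 + 1069956 * (jq ^ 2 * qExpand ℚ 3 jq) - 9457338111840
      * (jq * qExpand ℚ 3 jq) + 572980708638720000 * qExpand ℚ 3 jq - jq ^ 3 - 36864720 * jq ^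
      2 - 328219361280000 * jq - 2641807540224000000000
      : LaurentSeries ℚ) ≠ 0 := by
  intro h
  have e : (
      (jq ^ 2 * qExpand ℚ 3 jq ^ 3) - 1512 * (jq * qExpand ℚ 3 jq ^ 3) + 374706 * qExpand ℚ 3
      jq ^ 3 - 2232 * (jq ^ 2 * qExpand ℚ 3 jq ^ 2) - 2202104637 * (jq * qExpand ℚ 3 jq ^ 2) -
      3513047559120 * qExpand ℚ 3 jq ^ 2 + 1069956 * (jq ^ 2 * qExpand ℚ 3 jq) - 9457338111840
      * (jq * qExpand ℚ 3 jq) + 572980708638720000 * qExpand ℚ 3 jq - jq ^ 3 - 36864720 * jq ^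
      2 - 328219361280000 * jq - 2641807540224000000000
      : LaurentSeries ℚ) = jq ^ 2 * qExpand ℚ 3 jq ^ 3 + (
        algebraMap ℚ (LaurentSeries ℚ) (-1512) * (jq ^ 1 * qExpand ℚ 3 jq ^ 3) +
        algebraMap ℚ (LaurentSeries ℚ) (374706) * (jq ^ 0 * qExpand ℚ 3 jq ^ 3) +
        algebraMap ℚ (LaurentSeries ℚ) (-2232) * (jq ^ 2 * qExpand ℚ 3 jq ^ 2) +
        algebraMap ℚ (LaurentSeries ℚ) (-2202104637) * (jq ^ 1 * qExpand ℚ 3 jq ^ 2) +
        algebraMap ℚ (LaurentSeries ℚ) (-3513047559120) * (jq ^ 0 * qExpand ℚ 3 jq ^ 2) +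
        algebraMap ℚ (LaurentSeries ℚ) (1069956) * (jq ^ 2 * qExpand ℚ 3 jq ^ 1) +
        algebraMap ℚ (LaurentSeries ℚ) (-9457338111840) * (jq ^ 1 * qExpand ℚ 3 jq ^ 1) +
        algebraMap ℚ (LaurentSeries ℚ) (572980708638720000) * (jq ^ 0 * qExpand ℚ 3 jq ^ 1) +
        algebraMap ℚ (LaurentSeries ℚ) (-1) * (jq ^ 3 * qExpand ℚ 3 jq ^ 0) +
        algebraMap ℚ (LaurentSeries ℚ) (-36864720) * (jq ^ 2 * qExpand ℚ 3 jq ^ 0) +
        algebraMap ℚ (LaurentSeries ℚ) (-328219361280000) * (jq ^ 1 * qExpand ℚ 3 jq ^ 0) +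
        algebraMap ℚ (LaurentSeries ℚ) (-2641807540224000000000) * (jq ^ 0 * qExpand ℚ 3 jq ^ 0)) := by
    simp only [map_neg, map_ofNat, map_one, pow_zero, pow_one, one_mul, mul_one]
    ring
  rw [e] at h
  have h1 := congrArg (fun x : LaurentSeries ℚ => x.coeff (-11)) h
  have z23 : (jq ^ 2 * qExpand ℚ 3 jq ^ 3).coeff (-11) = 1 := by
    have := coeff_mono_self 3 2 3
    norm_num at this
    exact this
  have z13 : (jq ^ 1 * qExpand ℚ 3 jq ^ 3).coeff (-11) = 0 :=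
    coeff_mono_of_lt 3 1 3 (by norm_num)
  have z03 : (jq ^ 0 * qExpand ℚ 3 jq ^ 3).coeff (-11) = 0 :=
    coeff_mono_of_lt 3 0 3 (by norm_num)
  have z22 : (jq ^ 2 * qExpand ℚ 3 jq ^ 2).coeff (-11) = 0 :=
    coeff_mono_of_lt 3 2 2 (by norm_num)
  have z12 : (jq ^ 1 * qExpand ℚ 3 jq ^ 2).coeff (-11) = 0 :=
    coeff_mono_of_lt 3 1 2 (by norm_num)
  have z02 : (jq ^ 0 * qExpand ℚ 3 jq ^ 2).coeff (-11) = 0 :=
    coeff_mono_of_lt 3 0 2 (by norm_num)
  have z21 : (jq ^ 2 * qExpand ℚ 3 jq ^ 1).coeff (-11) = 0 :=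
    coeff_mono_of_lt 3 2 1 (by norm_num)
  have z11 : (jq ^ 1 * qExpand ℚ 3 jq ^ 1).coeff (-11) = 0 :=
    coeff_mono_of_lt 3 1 1 (by norm_num)
  have z01 : (jq ^ 0 * qExpand ℚ 3 jq ^ 1).coeff (-11) = 0 :=
    coeff_mono_of_lt 3 0 1 (by norm_num)
  have z30 : (jq ^ 3 * qExpand ℚ 3 jq ^ 0).coeff (-11) = 0 :=
    coeff_mono_of_lt 3 3 0 (by norm_num)
  have z20 : (jq ^ 2 * qExpand ℚ 3 jq ^ 0).coeff (-11) = 0 :=
    coeff_mono_of_lt 3 2 0 (by norm_num)
  have z10 : (jq ^ 1 * qExpand ℚ 3 jq ^ 0).coeff (-11) = 0 :=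
    coeff_mono_of_lt 3 1 0 (by norm_num)
  have z00 : (jq ^ 0 * qExpand ℚ 3 jq ^ 0).coeff (-11) = 0 :=
    coeff_mono_of_lt 3 0 0 (by norm_num)
  simp only [HahnSeries.coeff_add, coeff_algebraMap_mul, z23, z13, z03, z22, z12, z02, z21, z11, z01, z30, z20, z10, z00, mul_zero, add_zero,
    HahnSeries.coeff_zero] at h1
  exact one_ne_zero h1

theorem h3q_mem : h3q ∈ modularFunctionFieldFull 3 := by
  have ha : jq ∈ modularFunctionFieldFull 3 := by
    have := jqd_mem_full 3 (one_dvd 3)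
    rwa [qExpand_one_apply] at this
  have hb : qExpand ℚ 3 jq ∈ modularFunctionFieldFull 3 := jqd_mem_full 3 dvd_rfl
  have hE := elim3 jq (qExpand ℚ 3 jq) h3q jq_mul_h3q jq3_mul_h3q
  have hden := den3_ne_zero
  have hc : ∀ n : ℕ, (n : LaurentSeries ℚ) ∈ modularFunctionFieldFull 3 := fun n => natCast_mem _ n
  have hof : ∀ n : ℕ, [n.AtLeastTwo] → (OfNat.ofNat n : LaurentSeries ℚ) ∈
      modularFunctionFieldFull 3 := fun n _ => by
    rw [← Nat.cast_ofNat]
    exact natCast_mem _ _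
  set den : LaurentSeries ℚ := (
      (jq ^ 2 * qExpand ℚ 3 jq ^ 3) - 1512 * (jq * qExpand ℚ 3 jq ^ 3) + 374706 * qExpand ℚ 3
      jq ^ 3 - 2232 * (jq ^ 2 * qExpand ℚ 3 jq ^ 2) - 2202104637 * (jq * qExpand ℚ 3 jq ^ 2) -
      3513047559120 * qExpand ℚ 3 jq ^ 2 + 1069956 * (jq ^ 2 * qExpand ℚ 3 jq) - 9457338111840
      * (jq * qExpand ℚ 3 jq) + 572980708638720000 * qExpand ℚ 3 jq - jq ^ 3 - 36864720 * jq ^
      2 - 328219361280000 * jq - 2641807540224000000000) with hdendef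
  set num : LaurentSeries ℚ := (
      -(jq * qExpand ℚ 3 jq ^ 3) + 756 * qExpand ℚ 3 jq ^ 3 - 19129644 * (jq * qExpand ℚ 3 jq ^ 2)
      - 23150726640 * qExpand ℚ 3 jq ^ 2 - 76509442080 *
      (jq * qExpand ℚ 3 jq) + 14204206448640000 * qExpand ℚ 3 jq - 531440 * jq ^ 2 +
      48430448640000 * jq - 97844723712000000000) with hnumdef
  have hdenmem : den ∈ modularFunctionFieldFull 3 := by
    rw [hdendef]
    repeat' first
      | exact ha
      | exact hb
      | exact hof _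
      | apply pow_mem
      | apply sub_mem
      | apply add_mem
      | apply mul_mem
  have hnummem : num ∈ modularFunctionFieldFull 3 := by
    rw [hnumdef]
    repeat' first
      | exact ha
      | exact hb
      | exact hof _
      | apply pow_mem
      | apply sub_mem
      | apply add_mem
      | apply neg_mem
      | apply mul_mem
  have hh : h3q = -num / den := by
    rw [eq_div_iff hden]
    linear_combination hE
  rw [hh]
  exact div_mem (neg_mem hnummem) hdenmem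

end Fermat.Agent.Lib.Hauptmodul
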