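/-
Abstract ramification data of the `j`-line (as exported by S24/Export/Ramification).
-/
import Fermat.Agent.S24.FFBasic

set_option autoImplicit false

namespace Fermat.Agent.Lib.Hauptmodul

open AlgebraicCurve

/-- `F / K(j)` is unramified outside `j = 0, 1728, ∞`, with indices dividing `3`, `2` over
`0`, `1728`. -/
structure JRam (K : Type*) {F : Type*} [Field K] [Field F] [Algebra K F] (j : F) : Prop where
  transc : Transcendental K j
  generic : ∀ c : K, c ≠ 0 → c ≠ 1728 → ∀ v : Place K F,
    0 < v.ord (j - algebraMap K F c) → v.ord (j - algebraMap K F c) = 1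
  at1728 : ∀ v : Place K F, 0 < v.ord (j - algebraMap K F 1728) →
    v.ord (j - algebraMap K F 1728) ∣ 2
  at0 : ∀ v : Place K F, 0 < v.ord j → v.ord j ∣ 3

end Fermat.Agent.Lib.Hauptmodul
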