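/-
Abstract: ramification over the `h₂`-line from ramification over the `j`-line and
`j h = (1 + 256 h)^3`.
-/
import Fermat.Agent.Lib.Hauptmodul.RamDefs

set_option autoImplicit false

namespace Fermat.Agent.Lib.Hauptmodul

open AlgebraicCurve Fermat.Agent.S24.FF

variable {K F : Type*} [Field K] [Field F] [Algebra K F] [CharZero K] {j h : F}

theorem Ram2.aux_charZero (K F : Type*) [Field K] [Field F] [Algebra K F] [CharZero K] :
    CharZero F :=
  charZero_of_injective_algebraMap (algebraMap K F).injective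

theorem Ram2.aux_ord_natCast (v : Place K F) (n : ℕ) : v.ord ((n : F)) = 0 := by
  rw [← map_natCast (algebraMap K F) n]
  exact ord_algebraMap v _

theorem Ram2.aux_ord_mul_left (v : Place K F) {a : F} (ha0 : a ≠ 0) (ha : v.ord a = 0) (x : F) :
    v.ord (a * x) = v.ord x := by
  rcases eq_or_ne x 0 with rfl | hx
  · simp
  · rw [v.ord_mul ha0 hx, ha, zero_add]

theorem Ram2.aux_ord_nat_mul (v : Place K F) {n : ℕ} (hn : n ≠ 0) (x : F) :
    v.ord ((n : F) * x) = v.ord x := by
  have := Ram2.aux_charZero K F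
  exact Ram2.aux_ord_mul_left v (Nat.cast_ne_zero.mpr hn) (Ram2.aux_ord_natCast v n) x

/-- `ord (a + x) = 0` and `a + x ≠ 0` when `a ≠ 0` has order `0` and `x` has positive order. -/
theorem Ram2.aux_unit_add (v : Place K F) {a x : F} (ha0 : a ≠ 0) (ha : v.ord a = 0)
    (hx : 0 < v.ord x) : v.ord (a + x) = 0 ∧ a + x ≠ 0 := by
  have h1 : v.ord (a + x) = v.ord a := ord_add_eq_of_lt v ha0 (by rw [ha]; exact hx)
  refine ⟨h1.trans ha, ?_⟩
  intro h0
  have h2 : x = -a := eq_neg_of_add_eq_zero_right h0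
  rw [h2, ord_neg, ha] at hx
  exact lt_irrefl _ hx

theorem Ram2.aux_pos_dvd_one {a : ℤ} (ha : 0 < a) {k : ℤ} (hk : 0 < k) (h : k * a ∣ k) :
    a = 1 := by
  have h1 : a ∣ 1 := by
    have : k * a ∣ k * 1 := by simpa using h
    exact (mul_dvd_mul_iff_left hk.ne').mp this
  exact Int.eq_one_of_dvd_one ha.le h1

/-- zeros of `h` are simple-pole-like for `j`: `ord j = - ord h` -/
theorem ram2_zero (H : j * h = (1 + 256 * h) ^ 3) (v : Place K F) (hv : 0 < v.ord h) :
    v.ord j = -v.ord h := by
  have hh : h ≠ 0 := ne_zero_of_ord_ne_zero v hv.ne'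
  have h256 : v.ord (256 * h) = v.ord h := by
    have := Ram2.aux_ord_nat_mul v (n := 256) (by norm_num) h
    simpa using this
  obtain ⟨h1, h2⟩ := Ram2.aux_unit_add v (a := 1) (x := 256 * h) one_ne_zero v.ord_one
    (by rw [h256]; exact hv)
  have hj : j ≠ 0 := by
    rintro rfl
    rw [zero_mul] at H
    exact pow_ne_zero 3 h2 H.symm
  have h3 := congrArg v.ord H
  rw [v.ord_mul hj hh, ord_pow, h1] at h3
  simp at h3
  omega

theorem ram2_pole (H : j * h = (1 + 256 * h) ^ 3) (v : Place K F) (hv : v.ord h < 0) :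
    v.ord j = 2 * v.ord h := by
  have := Ram2.aux_charZero K F
  have hh : h ≠ 0 := ne_zero_of_ord_ne_zero v hv.ne
  have h256 : v.ord (256 * h) = v.ord h := by
    have := Ram2.aux_ord_nat_mul v (n := 256) (by norm_num) h
    simpa using this
  have h0 : (256 : F) * h ≠ 0 := mul_ne_zero (by norm_num) hh
  have h1 : v.ord (256 * h + 1) = v.ord (256 * h) :=
    ord_add_eq_of_lt v h0 (by rw [h256, v.ord_one]; exact hv)
  have h2 : (1 : F) + 256 * h ≠ 0 := by
    intro h3
    rw [add_comm, h3, v.ord_zero, h256] at h1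
    omega
  have hj : j ≠ 0 := by
    rintro rfl
    rw [zero_mul] at H
    exact pow_ne_zero 3 h2 H.symm
  have h3 := congrArg v.ord H
  rw [v.ord_mul hj hh, ord_pow, add_comm (1 : F), h1, h256] at h3
  push_cast at h3
  omega

/-- poles of `j` are zeros or poles of `h` -/
theorem ram2_of_pole (H : j * h = (1 + 256 * h) ^ 3) (v : Place K F) (hv : v.ord j < 0) :
    v.ord h ≠ 0 := by
  intro h0
  have hj : j ≠ 0 := ne_zero_of_ord_ne_zero v hv.ne
  have hh : h ≠ 0 := by
    rintro rfl
    simp at H
  have h256 : v.ord (256 * h) = v.ord h := by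
    have := Ram2.aux_ord_nat_mul v (n := 256) (by norm_num) h
    simpa using this
  have h2 : (1 : F) + 256 * h ≠ 0 := by
    intro h3
    rw [h3] at H
    simp at H
    exact H.elim hj hh
  have h1 := min_ord_le_ord_add v h2
  rw [v.ord_one, h256, h0, min_self] at h1
  have h3 := congrArg v.ord H
  rw [v.ord_mul hj hh, ord_pow, h0] at h3
  push_cast at h3
  omega

/-- unramified outside `h = 0, -1/64, ∞` -/
theorem ram2_generic (hj : JRam K j) (H : j * h = (1 + 256 * h) ^ 3) (c : K) (h0 : c ≠ 0)
    (h1 : 64 * c + 1 ≠ 0) (v : Place K F) (hv : 0 < v.ord (h - algebraMap K F c)) :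
    v.ord (h - algebraMap K F c) = 1 := by
  have := Ram2.aux_charZero K F
  set C : F := algebraMap K F c with hC
  set x : F := h - C with hx
  have hC0 : C ≠ 0 := (map_ne_zero (algebraMap K F)).mpr h0
  have hCord : v.ord C = 0 := ord_algebraMap v c
  have hx0 : x ≠ 0 := ne_zero_of_ord_ne_zero v hv.ne'
  have hhx : h = C + x := by rw [hx]; ring
  obtain ⟨hhord, hh0⟩ : v.ord h = 0 ∧ h ≠ 0 := by
    rw [hhx]; exact Ram2.aux_unit_add v hC0 hCord hv
  by_cases c1 : 1 + 256 * c = 0
  · -- `j h = 256^3 x^3`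
    have hC1 : 1 + 256 * C = 0 := by
      have := congrArg (algebraMap K F) c1
      simpa only [map_add, map_mul, map_one, map_ofNat, map_zero] using this
    have e1 : j * h = ((16777216 : ℕ) : F) * x ^ 3 := by
      rw [H]
      have : 1 + 256 * h = 256 * x := by rw [hhx]; linear_combination hC1
      rw [this]; push_cast; ring
    have hj0 : j ≠ 0 := by
      rintro rfl
      rw [zero_mul] at e1
      exact mul_ne_zero (by norm_num) (pow_ne_zero 3 hx0) e1.symm
    have e2 := congrArg v.ord e1
    rw [v.ord_mul hj0 hh0, hhord, add_zero, Ram2.aux_ord_nat_mul v (by norm_num), ord_pow] at e2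
    push_cast at e2
    have e3 := hj.at0 v (by rw [e2]; omega)
    rw [e2] at e3
    exact Ram2.aux_pos_dvd_one hv (by norm_num) e3
  by_cases c2 : 1 - 512 * c = 0
  · have hC2 : 1 - 512 * C = 0 := by
      have := congrArg (algebraMap K F) c2
      simpa only [map_sub, map_mul, map_one, map_ofNat, map_zero] using this
    have hC3 : 1 + 64 * C ≠ 0 := by
      have : algebraMap K F (64 * c + 1) ≠ 0 := (map_ne_zero (algebraMap K F)).mpr h1
      intro h3
      apply this
      simp only [map_add, map_mul, map_one, map_ofNat]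
      rw [← hC]; linear_combination h3
    have hC3ord : v.ord (1 + 64 * C) = 0 := by
      have : (1 + 64 * C : F) = algebraMap K F (1 + 64 * c) := by
        simp only [map_add, map_mul, map_one, map_ofNat, hC]
      rw [this]; exact ord_algebraMap v _
    have h64 : v.ord (64 * x) = v.ord x := by
      have := Ram2.aux_ord_nat_mul v (n := 64) (by norm_num) x
      simpa using this
    obtain ⟨hy, hy0⟩ := Ram2.aux_unit_add v (x := 64 * x) hC3 hC3ord (by rw [h64]; exact hv)
    have e1 : (j - algebraMap K F 1728) * h = ((262144 : ℕ) : F) * ((1 + 64 * C + 64 * x) * x ^ 2) := by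
      have e0 : (j - 1728) * h = (1 + 64 * h) * (1 - 512 * h) ^ 2 := by
        linear_combination H
      have : 1 - 512 * h = -512 * x := by rw [hhx]; linear_combination hC2
      rw [map_ofNat, e0, this, hhx]; push_cast; ring
    have hj0 : j - algebraMap K F 1728 ≠ 0 := by
      intro h3
      rw [h3, zero_mul] at e1
      exact mul_ne_zero (by norm_num) (mul_ne_zero hy0 (pow_ne_zero 2 hx0)) e1.symm
    have e2 := congrArg v.ord e1
    rw [v.ord_mul hj0 hh0, hhord, add_zero, Ram2.aux_ord_nat_mul v (by norm_num),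
      v.ord_mul hy0 (pow_ne_zero 2 hx0), hy, zero_add, ord_pow] at e2
    push_cast at e2
    have e3 := hj.at1728 v (by rw [e2]; omega)
    rw [e2] at e3
    exact Ram2.aux_pos_dvd_one hv (by norm_num) e3
  · -- generic value
    set c' : K := (1 + 256 * c) ^ 3 / c with hc'
    have hc'0 : c' ≠ 0 := div_ne_zero (pow_ne_zero 3 c1) h0
    have hc'1 : c' ≠ 1728 := by
      intro h3
      have h4 : (1 + 256 * c) ^ 3 = 1728 * c := by
        rw [hc'] at h3
        field_simp at h3
        linear_combination h3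
      have h5 : (64 * c + 1) * (1 - 512 * c) ^ 2 = 0 := by linear_combination h4
      rcases mul_eq_zero.mp h5 with h6 | h6
      · exact h1 h6
      · exact c2 (pow_eq_zero_iff (by norm_num) |>.mp h6)
    set C' : F := algebraMap K F c' with hC'
    have hCC' : C' * C = (1 + 256 * C) ^ 3 := by
      have : c' * c = (1 + 256 * c) ^ 3 := by rw [hc']; field_simp
      have := congrArg (algebraMap K F) this
      simpa only [map_add, map_mul, map_one, map_ofNat, map_pow] using this
    set ψ : F := 16777216 * h * C * (h + C) + 196608 * h * C - 1 with hψ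
    have e1 : (j - C') * (h * C) = x * ψ := by
      rw [hψ, hx]
      linear_combination C * H - h * hCC'
    have hjC : j - C' ≠ 0 := by
      intro h3
      have h4 : j = algebraMap K F c' := sub_eq_zero.mp h3
      exact hj.transc (h4 ▸ isAlgebraic_algebraMap c')
    have hψ0 : ψ ≠ 0 := by
      intro h3
      rw [h3, mul_zero] at e1
      exact mul_ne_zero hjC (mul_ne_zero hh0 hC0) e1
    have hψord : 0 ≤ v.ord ψ := by
      rw [← mem_iff_ord_nonneg]
      have hhm : h ∈ v.toValuationSubring := (mem_iff_ord_nonneg v).mpr hhord.ge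
      have hCm : C ∈ v.toValuationSubring := (mem_iff_ord_nonneg v).mpr hCord.ge
      have hn : ∀ n : ℕ, (n : F) ∈ v.toValuationSubring := fun n => natCast_mem _ n
      have h16 : (16777216 : F) ∈ v.toValuationSubring := by simp
      have h19 : (196608 : F) ∈ v.toValuationSubring := by simp
      rw [hψ]
      exact sub_mem (add_mem (mul_mem (mul_mem (mul_mem h16 hhm) hCm) (add_mem hhm hCm))
        (mul_mem (mul_mem h19 hhm) hCm)) (one_mem _)
    have e2 := congrArg v.ord e1
    rw [v.ord_mul hjC (mul_ne_zero hh0 hC0), v.ord_mul hh0 hC0, hhord, hCord,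
      v.ord_mul hx0 hψ0] at e2
    have e3 := hj.generic c' hc'0 hc'1 v (by rw [← hC']; omega)
    rw [← hC'] at e3
    omega

/-- index `1` or `2` at the elliptic value `h = -1/64` -/
theorem ram2_elliptic (hj : JRam K j) (H : j * h = (1 + 256 * h) ^ 3) (v : Place K F)
    (hv : 0 < v.ord (1 + 64 * h)) : v.ord (1 + 64 * h) ∣ 2 := by
  have := Ram2.aux_charZero K F
  set y : F := 1 + 64 * h with hy
  have hy0 : y ≠ 0 := ne_zero_of_ord_ne_zero v hv.ne'
  have hm1 : v.ord (-1 : F) = 0 := by rw [ord_neg, v.ord_one]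
  obtain ⟨h64, h640⟩ := Ram2.aux_unit_add v (a := -1) (x := y) (by norm_num) hm1 hv
  have e64 : (-1 : F) + y = ((64 : ℕ) : F) * h := by rw [hy]; push_cast; ring
  rw [e64] at h64 h640
  rw [Ram2.aux_ord_nat_mul v (by norm_num)] at h64
  have hh0 : h ≠ 0 := right_ne_zero_of_mul h640
  have h8 : v.ord (-(((8 : ℕ) : F) * y)) = v.ord y := by
    rw [ord_neg, Ram2.aux_ord_nat_mul v (by norm_num)]
  obtain ⟨h9, h90⟩ := Ram2.aux_unit_add v (a := ((9 : ℕ) : F)) (x := -(((8 : ℕ) : F) * y))
    (by norm_num) (Ram2.aux_ord_natCast v 9) (by rw [h8]; exact hv)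
  have e9 : ((9 : ℕ) : F) + -(((8 : ℕ) : F) * y) = 1 - 512 * h := by rw [hy]; push_cast; ring
  rw [e9] at h9 h90
  have e1 : (j - algebraMap K F 1728) * h = y * (1 - 512 * h) ^ 2 := by
    rw [map_ofNat, hy]; linear_combination H
  have hj0 : j - algebraMap K F 1728 ≠ 0 := by
    intro h3
    rw [h3, zero_mul] at e1
    exact mul_ne_zero hy0 (pow_ne_zero 2 h90) e1.symm
  have e2 := congrArg v.ord e1
  rw [v.ord_mul hj0 hh0, h64, add_zero, v.ord_mul hy0 (pow_ne_zero 2 h90), ord_pow, h9] at e2
  simp only [mul_zero, add_zero] at e2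
  have e3 := hj.at1728 v (by rw [e2]; exact hv)
  rwa [e2] at e3

end Fermat.Agent.Lib.Hauptmodul
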