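/-
Abstract: ramification over the `h₃`-line from ramification over the `j`-line and
`j h = (1 + 27 h) (1 + 243 h)^3`.
-/
import Fermat.Agent.Lib.Hauptmodul.RamDefs

set_option autoImplicit false

namespace Fermat.Agent.Lib.Hauptmodul

open AlgebraicCurve Fermat.Agent.S24.FF

variable {K F : Type*} [Field K] [Field F] [Algebra K F] [CharZero K] {j h : F}

omit [CharZero K] in
theorem Ram3.aux_alg_ne_zero {a : K} (ha : a ≠ 0) : algebraMap K F a ≠ 0 := by
  simpa using ha

omit [CharZero K] in
/-- a nonzero constant plus something of positive order is a unit at `v` -/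
theorem Ram3.aux_ord_alg_add (v : Place K F) {a : K} (ha : a ≠ 0) {x : F} (hx : 0 < v.ord x) :
    v.ord (algebraMap K F a + x) = 0 ∧ algebraMap K F a + x ≠ 0 := by
  have ha' : algebraMap K F a ≠ 0 := Ram3.aux_alg_ne_zero ha
  refine ⟨?_, ?_⟩
  · rw [ord_add_eq_of_lt v ha' (by rw [ord_algebraMap]; exact hx), ord_algebraMap]
  · intro h0
    have : x = -algebraMap K F a := eq_neg_of_add_eq_zero_right h0
    rw [this, ord_neg, ord_algebraMap] at hx
    exact lt_irrefl _ hx

omit [CharZero K] in
theorem Ram3.aux_ord_alg_mul (v : Place K F) {a : K} (ha : a ≠ 0) (x : F) :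
    v.ord (algebraMap K F a * x) = v.ord x := by
  rcases eq_or_ne x 0 with rfl | hx
  · simp
  rw [v.ord_mul (Ram3.aux_alg_ne_zero ha) hx, ord_algebraMap, zero_add]

omit [CharZero K] in
theorem Ram3.aux_ne_zero_of_pos (v : Place K F) {x : F} (hx : 0 < v.ord x) : x ≠ 0 :=
  ne_zero_of_ord_ne_zero v hx.ne'

omit [CharZero K] in
/-- positive divisor arithmetic: `0 < n`, `m * n ∣ m`, `m ≠ 0` gives `n = 1` -/
theorem Ram3.aux_eq_one_of_mul_dvd {m n : ℤ} (hm : m ≠ 0) (hn : 0 < n) (hd : m * n ∣ m) :
    n = 1 := by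
  have h1 : n ∣ 1 := by
    have : m * n ∣ m * 1 := by simpa using hd
    exact (mul_dvd_mul_iff_left hm).mp this
  exact Int.eq_one_of_dvd_one hn.le h1

theorem ram3_zero (H : j * h = (1 + 27 * h) * (1 + 243 * h) ^ 3) (v : Place K F)
    (hv : 0 < v.ord h) : v.ord j = -v.ord h := by
  have hh : h ≠ 0 := Ram3.aux_ne_zero_of_pos v hv
  have e1 : (1 + 27 * h : F) = algebraMap K F 1 + algebraMap K F 27 * h := by
    simp only [map_one, map_ofNat]
  have e2 : (1 + 243 * h : F) = algebraMap K F 1 + algebraMap K F 243 * h := by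
    simp only [map_one, map_ofNat]
  obtain ⟨o1, n1⟩ := Ram3.aux_ord_alg_add v (a := 1) one_ne_zero
    (x := algebraMap K F 27 * h) (by rw [Ram3.aux_ord_alg_mul v (by norm_num)]; exact hv)
  obtain ⟨o2, n2⟩ := Ram3.aux_ord_alg_add v (a := 1) one_ne_zero
    (x := algebraMap K F 243 * h) (by rw [Ram3.aux_ord_alg_mul v (by norm_num)]; exact hv)
  rw [← e1] at o1 n1
  rw [← e2] at o2 n2
  have hj : j ≠ 0 := by
    rintro rfl
    rw [zero_mul] at H
    exact mul_ne_zero n1 (pow_ne_zero 3 n2) H.symm
  have := congrArg v.ord H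
  rw [v.ord_mul hj hh, v.ord_mul n1 (pow_ne_zero 3 n2), ord_pow, o1, o2] at this
  omega

theorem ram3_pole (H : j * h = (1 + 27 * h) * (1 + 243 * h) ^ 3) (v : Place K F)
    (hv : v.ord h < 0) : v.ord j = 3 * v.ord h := by
  have hh : h ≠ 0 := ne_zero_of_ord_ne_zero v hv.ne
  have key : ∀ a : K, a ≠ 0 → v.ord (1 + algebraMap K F a * h) = v.ord h ∧
      1 + algebraMap K F a * h ≠ 0 := by
    intro a ha
    have hne : algebraMap K F a * h ≠ 0 := mul_ne_zero (Ram3.aux_alg_ne_zero ha) hh
    have ho : v.ord (algebraMap K F a * h) = v.ord h := Ram3.aux_ord_alg_mul v ha h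
    have h1 : v.ord (algebraMap K F a * h + 1) = v.ord h := by
      rw [ord_add_eq_of_lt v hne (by rw [ho, v.ord_one]; exact hv), ho]
    rw [add_comm]
    refine ⟨h1, ?_⟩
    intro h0
    rw [h0, v.ord_zero] at h1
    omega
  obtain ⟨o1, n1⟩ := key 27 (by norm_num)
  obtain ⟨o2, n2⟩ := key 243 (by norm_num)
  have e1 : (1 + algebraMap K F 27 * h : F) = 1 + 27 * h := by simp only [map_ofNat]
  have e2 : (1 + algebraMap K F 243 * h : F) = 1 + 243 * h := by simp only [map_ofNat]
  rw [e1] at o1 n1
  rw [e2] at o2 n2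
  have hj : j ≠ 0 := by
    rintro rfl
    rw [zero_mul] at H
    exact mul_ne_zero n1 (pow_ne_zero 3 n2) H.symm
  have := congrArg v.ord H
  rw [v.ord_mul hj hh, v.ord_mul n1 (pow_ne_zero 3 n2), ord_pow, o1, o2] at this
  push_cast at this
  omega

set_option linter.unusedSectionVars false in
/-- poles of `j` are zeros or poles of `h` -/
theorem ram3_of_pole (H : j * h = (1 + 27 * h) * (1 + 243 * h) ^ 3) (v : Place K F)
    (hv : v.ord j < 0) : v.ord h ≠ 0 := by
  intro h0
  have hj : j ≠ 0 := ne_zero_of_ord_ne_zero v hv.ne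
  have hh : h ≠ 0 := by
    rintro rfl
    norm_num at H
  have hmem : h ∈ v.toValuationSubring := mem_of_ord_nonneg v h0.ge
  have hR : (1 + 27 * h) * (1 + 243 * h) ^ 3 ∈ v.toValuationSubring := by
    have c1 : (27 : F) ∈ v.toValuationSubring := by
      have := v.algebraMap_mem' (27 : K)
      rwa [map_ofNat] at this
    have c2 : (243 : F) ∈ v.toValuationSubring := by
      have := v.algebraMap_mem' (243 : K)
      rwa [map_ofNat] at this
    exact mul_mem (add_mem (one_mem _) (mul_mem c1 hmem))
      (pow_mem (add_mem (one_mem _) (mul_mem c2 hmem)) 3)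
  have h1 := ord_nonneg_of_mem v hR
  rw [← H, v.ord_mul hj hh, h0] at h1
  omega

/-- unramified outside `h = 0, -1/27, ∞` -/
theorem ram3_generic (hj : JRam K j) (H : j * h = (1 + 27 * h) * (1 + 243 * h) ^ 3) (c : K)
    (h0 : c ≠ 0) (h1 : 27 * c + 1 ≠ 0) (v : Place K F)
    (hv : 0 < v.ord (h - algebraMap K F c)) : v.ord (h - algebraMap K F c) = 1 := by
  set C : F := algebraMap K F c with hC
  set t : F := h - C with ht
  have ht0 : t ≠ 0 := Ram3.aux_ne_zero_of_pos v hv
  have hht : h = C + t := by rw [ht]; ring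
  obtain ⟨oh, nh⟩ := Ram3.aux_ord_alg_add v h0 hv
  rw [← hC, ← hht] at oh nh
  by_cases c1 : 1 + 243 * c = 0
  · -- `ord j = 3 ord t`
    have c1F : (1 + 243 * C : F) = 0 := by
      have := congrArg (algebraMap K F) c1
      simp only [map_add, map_mul, map_one, map_ofNat, map_zero] at this
      exact this
    have e2 : (1 + 243 * h : F) = algebraMap K F 243 * t := by
      have : (algebraMap K F 243 : F) = 243 := map_ofNat (algebraMap K F) 243
      rw [this, hht]
      linear_combination c1F
    have e1 : (1 + 27 * h : F) = algebraMap K F (27 * c + 1) + algebraMap K F 27 * t := by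
      simp only [map_add, map_mul, map_one, map_ofNat, ← hC]
      rw [hht]; ring
    obtain ⟨o1, n1⟩ := Ram3.aux_ord_alg_add v h1 (x := algebraMap K F 27 * t)
      (by rw [Ram3.aux_ord_alg_mul v (by norm_num)]; exact hv)
    rw [← e1] at o1 n1
    have o2 : v.ord (1 + 243 * h) = v.ord t := by
      rw [e2, Ram3.aux_ord_alg_mul v (by norm_num)]
    have n2 : (1 + 243 * h : F) ≠ 0 := by
      rw [e2]; exact mul_ne_zero (Ram3.aux_alg_ne_zero (by norm_num)) ht0
    have hj0 : j ≠ 0 := by
      rintro rfl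
      rw [zero_mul] at H
      exact mul_ne_zero n1 (pow_ne_zero 3 n2) H.symm
    have hord := congrArg v.ord H
    rw [v.ord_mul hj0 nh, v.ord_mul n1 (pow_ne_zero 3 n2), ord_pow, o1, o2, oh] at hord
    push_cast at hord
    have hjt : v.ord j = 3 * v.ord t := by omega
    have hd := hj.at0 v (by omega)
    rw [hjt] at hd
    exact Ram3.aux_eq_one_of_mul_dvd (by norm_num) hv hd
  by_cases c2 : 1 - 486 * c - 19683 * c ^ 2 = 0
  · have c2F : (1 - 486 * C - 19683 * C ^ 2 : F) = 0 := by
      have := congrArg (algebraMap K F) c2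
      simp only [map_sub, map_mul, map_one, map_ofNat, map_zero, map_pow] at this
      exact this
    have H2 : (j - algebraMap K F 1728) * h = (1 - 486 * h - 19683 * h ^ 2) ^ 2 := by
      have : (algebraMap K F 1728 : F) = 1728 := map_ofNat (algebraMap K F) 1728
      rw [this]
      linear_combination H
    have c3 : 486 + 39366 * c ≠ 0 := by
      intro h3
      have hc : c = -1 / 81 := by
        field_simp
        linear_combination (1 / 486 : K) * h3
      rw [hc] at c2
      norm_num at c2
    have e3 : (1 - 486 * h - 19683 * h ^ 2 : F) =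
        -(t * (algebraMap K F (486 + 39366 * c) + algebraMap K F 19683 * t)) := by
      simp only [map_add, map_mul, map_ofNat, ← hC]
      rw [hht]
      linear_combination c2F
    obtain ⟨o3, n3⟩ := Ram3.aux_ord_alg_add v c3 (x := algebraMap K F 19683 * t)
      (by rw [Ram3.aux_ord_alg_mul v (by norm_num)]; exact hv)
    have o4 : v.ord (1 - 486 * h - 19683 * h ^ 2) = v.ord t := by
      rw [e3, ord_neg, v.ord_mul ht0 n3, o3, add_zero]
    have n4 : (1 - 486 * h - 19683 * h ^ 2 : F) ≠ 0 := by
      rw [e3]; exact neg_ne_zero.mpr (mul_ne_zero ht0 n3)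
    have hj0 : j - algebraMap K F 1728 ≠ 0 := by
      intro hz
      rw [hz, zero_mul] at H2
      exact pow_ne_zero 2 n4 H2.symm
    have hord := congrArg v.ord H2
    rw [v.ord_mul hj0 nh, ord_pow, o4, oh] at hord
    push_cast at hord
    have hjt : v.ord (j - algebraMap K F 1728) = 2 * v.ord t := by omega
    have hd := hj.at1728 v (by omega)
    rw [hjt] at hd
    exact Ram3.aux_eq_one_of_mul_dvd (by norm_num) hv hd
  · -- generic value
    set c' : K := (1 + 27 * c) * (1 + 243 * c) ^ 3 / c with hc'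
    have hc'0 : c' ≠ 0 := by
      rw [hc']
      refine div_ne_zero (mul_ne_zero ?_ (pow_ne_zero 3 c1)) h0
      rwa [add_comm]
    have hc'c : c' * c = (1 + 27 * c) * (1 + 243 * c) ^ 3 := by
      rw [hc']; field_simp
    have hc'1 : c' ≠ 1728 := by
      intro h3
      rw [h3] at hc'c
      apply pow_ne_zero 2 c2
      linear_combination -hc'c
    have hc'F : algebraMap K F c' * C = (1 + 27 * C) * (1 + 243 * C) ^ 3 := by
      have := congrArg (algebraMap K F) hc'c
      simp only [map_add, map_mul, map_one, map_ofNat, map_pow] at this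
      exact this
    set ψ : F := -1 + 196830 * C * h + 19131876 * C * h * (h + C)
      + 387420489 * C * h * (h ^ 2 + h * C + C ^ 2) with hψ
    have key : (j - algebraMap K F c') * (h * C) = t * ψ := by
      rw [hψ, ht]
      linear_combination C * H - h * hc'F
    have hCmem : C ∈ v.toValuationSubring := v.algebraMap_mem' c
    have hmem : h ∈ v.toValuationSubring := mem_of_ord_nonneg v oh.ge
    have hnum : ∀ n : ℕ, (n : F) ∈ v.toValuationSubring := fun n => natCast_mem _ n
    have hψmem : ψ ∈ v.toValuationSubring := by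
      rw [hψ]
      have a1 : (196830 : F) ∈ v.toValuationSubring := by exact_mod_cast hnum 196830
      have a2 : (19131876 : F) ∈ v.toValuationSubring := by exact_mod_cast hnum 19131876
      have a3 : (387420489 : F) ∈ v.toValuationSubring := by exact_mod_cast hnum 387420489
      exact add_mem (add_mem (add_mem (neg_mem (one_mem _)) (mul_mem (mul_mem a1 hCmem) hmem))
        (mul_mem (mul_mem (mul_mem a2 hCmem) hmem) (add_mem hmem hCmem)))
        (mul_mem (mul_mem (mul_mem a3 hCmem) hmem)
          (add_mem (add_mem (pow_mem hmem 2) (mul_mem hmem hCmem)) (pow_mem hCmem 2)))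
    have hψord : 0 ≤ v.ord ψ := ord_nonneg_of_mem v hψmem
    have hjc : j - algebraMap K F c' ≠ 0 := by
      intro hz
      apply hj.transc
      rw [sub_eq_zero] at hz
      rw [hz]
      exact isAlgebraic_algebraMap c'
    have nC : C ≠ 0 := Ram3.aux_alg_ne_zero h0
    have hψ0 : ψ ≠ 0 := by
      intro hz
      rw [hz, mul_zero] at key
      exact mul_ne_zero hjc (mul_ne_zero nh nC) key
    have hord := congrArg v.ord key
    rw [v.ord_mul hjc (mul_ne_zero nh nC), v.ord_mul nh nC, oh, ord_algebraMap v c,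
      v.ord_mul ht0 hψ0] at hord
    have hg := hj.generic c' hc'0 hc'1 v (by omega)
    omega

/-- index `1` or `3` at the elliptic value `h = -1/27` -/
theorem ram3_elliptic (hj : JRam K j) (H : j * h = (1 + 27 * h) * (1 + 243 * h) ^ 3)
    (v : Place K F) (hv : 0 < v.ord (1 + 27 * h)) : v.ord (1 + 27 * h) ∣ 3 := by
  set s : F := 1 + 27 * h with hs
  have ns : s ≠ 0 := Ram3.aux_ne_zero_of_pos v hv
  have e1 : algebraMap K F 27 * h = algebraMap K F (-1) + s := by
    simp only [map_neg, map_one, map_ofNat]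
    rw [hs]; ring
  obtain ⟨o1, n1⟩ := Ram3.aux_ord_alg_add v (a := (-1 : K)) (by norm_num) hv
  rw [← e1] at o1 n1
  rw [Ram3.aux_ord_alg_mul v (by norm_num)] at o1
  have nh : h ≠ 0 := right_ne_zero_of_mul n1
  have e2 : (1 + 243 * h : F) = algebraMap K F (-8) + algebraMap K F 9 * s := by
    simp only [map_neg, map_ofNat]
    rw [hs]; ring
  obtain ⟨o2, n2⟩ := Ram3.aux_ord_alg_add v (a := (-8 : K)) (by norm_num)
    (x := algebraMap K F 9 * s) (by rw [Ram3.aux_ord_alg_mul v (by norm_num)]; exact hv)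
  rw [← e2] at o2 n2
  have hj0 : j ≠ 0 := by
    rintro rfl
    rw [zero_mul] at H
    exact mul_ne_zero ns (pow_ne_zero 3 n2) H.symm
  have hord := congrArg v.ord H
  rw [v.ord_mul hj0 nh, v.ord_mul ns (pow_ne_zero 3 n2), ord_pow, o1, o2] at hord
  have hjs : v.ord j = v.ord s := by omega
  rw [← hjs]
  exact hj.at0 v (by omega)

end Fermat.Agent.Lib.Hauptmodul
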