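/-
The Hauptmoduln as elements of `FN M = ℚ̄(X₀(M))` (`r ∣ M`) and the ramification of `FN M` over the
`h_r`-line.  Final export of `Lib/Hauptmodul`.
-/
import Fermat.Agent.S24.Export.Ramification
import Fermat.Agent.Lib.Hauptmodul.Member2
import Fermat.Agent.Lib.Hauptmodul.Member3
import Fermat.Agent.Lib.Hauptmodul.Ram2
import Fermat.Agent.Lib.Hauptmodul.Ram3
import Fermat.Agent.Lib.Hauptmodul.Basic

set_option autoImplicit false

noncomputable section

namespace Fermat.Agent.Lib.Hauptmodul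

open AlgebraicCurve ModularCurve Fermat.Agent.S24

/-- `h₂` in the function field of `X₀(M)`, `2 ∣ M` -/
def h2F (M : ℕ) [NeZero M] (hM : 2 ∣ M) : FN M :=
  ⟨coeffEmb Kbar h2q, coeffEmb_mem_laurentBaseChange Kbar (full_degeneracy_le hM h2q_mem)⟩

/-- `h₃` in the function field of `X₀(M)`, `3 ∣ M` -/
def h3F (M : ℕ) [NeZero M] (hM : 3 ∣ M) : FN M :=
  ⟨coeffEmb Kbar h3q, coeffEmb_mem_laurentBaseChange Kbar (full_degeneracy_le hM h3q_mem)⟩

variable (M : ℕ) [NeZero M]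

theorem jRam : JRam Kbar (jF M) where
  transc := Formal.transcendental_jF M
  generic := fun c h0 h1 v hv => Export.ord_jF_sub_eq_one M c h0 h1 v hv
  at1728 := fun v hv => Export.ord_jF_sub_1728_dvd M v hv
  at0 := fun v hv => Export.ord_jF_dvd M v hv

/-- the `q`-expansion of `h₂` over `ℚ̄` comes from `ℤ[[q]]` -/
theorem coe_h2F (hM : 2 ∣ M) : ((h2F M hM : FN M) : LaurentSeries Kbar) = toL Kbar h2Z := by
  show coeffMap (algebraMap ℚ Kbar) (toL ℚ h2Z) = toL Kbar h2Z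
  exact coeffMap_toL _ _

theorem coe_h3F (hM : 3 ∣ M) : ((h3F M hM : FN M) : LaurentSeries Kbar) = toL Kbar h3Z := by
  show coeffMap (algebraMap ℚ Kbar) (toL ℚ h3Z) = toL Kbar h3Z
  exact coeffMap_toL _ _

omit [NeZero M] in
/-- transcendence descends along the inclusion `FN M ⊆ ℚ̄((q))` -/
theorem Bar.transcendental_of_coe (x : FN M)
    (hx : Transcendental Kbar (x : LaurentSeries Kbar)) : Transcendental Kbar x := by
  intro h
  exact hx (IsAlgebraic.algHom (modularFunctionFieldBar M).val h)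

theorem transcendental_h2F (hM : 2 ∣ M) : Transcendental Kbar (h2F M hM) := by
  apply Bar.transcendental_of_coe
  apply transcendental_of_coeff
  · intro k hk
    show algebraMap ℚ Kbar (h2q.coeff k) = 0
    rw [coeff_h2q_of_lt hk, map_zero]
  · show algebraMap ℚ Kbar (h2q.coeff 1) = 1
    rw [coeff_h2q_one, map_one]

theorem transcendental_h3F (hM : 3 ∣ M) : Transcendental Kbar (h3F M hM) := by
  apply Bar.transcendental_of_coe
  apply transcendental_of_coeff
  · intro k hk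
    show algebraMap ℚ Kbar (h3q.coeff k) = 0
    rw [coeff_h3q_of_lt hk, map_zero]
  · show algebraMap ℚ Kbar (h3q.coeff 1) = 1
    rw [coeff_h3q_one, map_one]

omit [NeZero M] in
theorem Bar.coe_jF : ((jF M : FN M) : LaurentSeries Kbar) = coeffEmb Kbar jq := by
  show coeffEmb Kbar (qExpand ℚ 1 jq) = coeffEmb Kbar jq
  rw [qExpand_one_apply]

omit [NeZero M] in
theorem Bar.coe_JF (d : ℕ) [NeZero d] (hd : d ∣ M) :
    ((JF M d hd : FN M) : LaurentSeries Kbar) = coeffEmb Kbar (qExpand ℚ d jq) := rfl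

theorem Bar.coe_h2F' (hM : 2 ∣ M) :
    ((h2F M hM : FN M) : LaurentSeries Kbar) = coeffEmb Kbar h2q := rfl

theorem Bar.coe_h3F' (hM : 3 ∣ M) :
    ((h3F M hM : FN M) : LaurentSeries Kbar) = coeffEmb Kbar h3q := rfl

theorem jF_mul_h2F (hM : 2 ∣ M) : jF M * h2F M hM = (1 + 256 * h2F M hM) ^ 3 := by
  apply Subtype.ext
  have h := congrArg (coeffEmb Kbar) jq_mul_h2q
  simp only [map_mul, map_pow, map_add, map_one, map_ofNat] at h
  push_cast
  rw [Bar.coe_jF, Bar.coe_h2F']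
  exact h

theorem JF_two_mul_h2F (hM : 2 ∣ M) : JF M 2 hM * h2F M hM ^ 2 = (1 + 16 * h2F M hM) ^ 3 := by
  apply Subtype.ext
  have h := congrArg (coeffEmb Kbar) jq2_mul_h2q
  simp only [map_mul, map_pow, map_add, map_one, map_ofNat] at h
  push_cast
  rw [Bar.coe_JF, Bar.coe_h2F']
  exact h

theorem jF_mul_h3F (hM : 3 ∣ M) :
    jF M * h3F M hM = (1 + 27 * h3F M hM) * (1 + 243 * h3F M hM) ^ 3 := by
  apply Subtype.ext
  have h := congrArg (coeffEmb Kbar) jq_mul_h3q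
  simp only [map_mul, map_pow, map_add, map_one, map_ofNat] at h
  push_cast
  rw [Bar.coe_jF, Bar.coe_h3F']
  exact h

theorem JF_three_mul_h3F (hM : 3 ∣ M) :
    JF M 3 hM * h3F M hM ^ 3 = (1 + 27 * h3F M hM) * (1 + 3 * h3F M hM) ^ 3 := by
  apply Subtype.ext
  have h := congrArg (coeffEmb Kbar) jq3_mul_h3q
  simp only [map_mul, map_pow, map_add, map_one, map_ofNat] at h
  push_cast
  rw [Bar.coe_JF, Bar.coe_h3F']
  exact h

/-- `FN M / ℚ̄(h₂)` is unramified outside `h₂ = 0, -1/64, ∞` -/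
theorem ord_h2F_sub_eq_one (hM : 2 ∣ M) (c : Kbar) (h0 : c ≠ 0) (h1 : 64 * c + 1 ≠ 0)
    (v : Place Kbar (FN M)) (hv : 0 < v.ord (h2F M hM - algebraMap Kbar (FN M) c)) :
    v.ord (h2F M hM - algebraMap Kbar (FN M) c) = 1 :=
  ram2_generic (jRam M) (jF_mul_h2F M hM) c h0 h1 v hv

theorem ord_h2F_elliptic_dvd (hM : 2 ∣ M) (v : Place Kbar (FN M))
    (hv : 0 < v.ord (1 + 64 * h2F M hM)) : v.ord (1 + 64 * h2F M hM) ∣ 2 :=
  ram2_elliptic (jRam M) (jF_mul_h2F M hM) v hv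

/-- at the cusps the index divides `M` -/
theorem ord_h2F_dvd (hM : 2 ∣ M) (v : Place Kbar (FN M)) (hv : v.ord (h2F M hM) ≠ 0) :
    v.ord (h2F M hM) ∣ (M : ℤ) := by
  rcases lt_or_gt_of_ne hv with h | h
  · have e := ram2_pole (jF_mul_h2F M hM) v h
    have d := Export.ord_jF_dvd_of_neg M v (by rw [e]; omega)
    rw [e] at d
    exact dvd_of_mul_left_dvd d
  · have e := ram2_zero (jF_mul_h2F M hM) v h
    have d := Export.ord_jF_dvd_of_neg M v (by rw [e]; omega)
    rw [e] at d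
    exact (neg_dvd).1 d

/-- `FN M / ℚ̄(h₃)` is unramified outside `h₃ = 0, -1/27, ∞` -/
theorem ord_h3F_sub_eq_one (hM : 3 ∣ M) (c : Kbar) (h0 : c ≠ 0) (h1 : 27 * c + 1 ≠ 0)
    (v : Place Kbar (FN M)) (hv : 0 < v.ord (h3F M hM - algebraMap Kbar (FN M) c)) :
    v.ord (h3F M hM - algebraMap Kbar (FN M) c) = 1 :=
  ram3_generic (jRam M) (jF_mul_h3F M hM) c h0 h1 v hv

theorem ord_h3F_elliptic_dvd (hM : 3 ∣ M) (v : Place Kbar (FN M))
    (hv : 0 < v.ord (1 + 27 * h3F M hM)) : v.ord (1 + 27 * h3F M hM) ∣ 3 :=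
  ram3_elliptic (jRam M) (jF_mul_h3F M hM) v hv

theorem ord_h3F_dvd (hM : 3 ∣ M) (v : Place Kbar (FN M)) (hv : v.ord (h3F M hM) ≠ 0) :
    v.ord (h3F M hM) ∣ (M : ℤ) := by
  rcases lt_or_gt_of_ne hv with h | h
  · have e := ram3_pole (jF_mul_h3F M hM) v h
    have d := Export.ord_jF_dvd_of_neg M v (by rw [e]; omega)
    rw [e] at d
    exact dvd_of_mul_left_dvd d
  · have e := ram3_zero (jF_mul_h3F M hM) v h
    have d := Export.ord_jF_dvd_of_neg M v (by rw [e]; omega)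
    rw [e] at d
    exact (neg_dvd).1 d

/-- `FN M` is finite over `ℚ̄(h_r)` -/
theorem finiteDimensional_h2F (hM : 2 ∣ M) :
    FiniteDimensional (IntermediateField.adjoin Kbar {h2F M hM}) (FN M) :=
  (Export.isFF1 M).finite _ (transcendental_h2F M hM)

theorem finiteDimensional_h3F (hM : 3 ∣ M) :
    FiniteDimensional (IntermediateField.adjoin Kbar {h3F M hM}) (FN M) :=
  (Export.isFF1 M).finite _ (transcendental_h3F M hM)

end Fermat.Agent.Lib.Hauptmodul
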