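/-
Hauptmodul identities over an ARBITRARY commutative ring `K` (owner helper227), for
helper167's `h2Z`, `h3Z`, `toL`:  with `j = jqModC K`, `j_r = jqNModC K r`, `h_r = toL K h_rZ`

* `j h₂ = (1 + 256 h₂)³`, `(j - 1728) h₂ = (1 + 64 h₂)(1 - 512 h₂)²`, `j₂ h₂² = (1 + 16 h₂)³`;
* `j h₃ = (1 + 27 h₃)(1 + 243 h₃)³`, `(j - 1728) h₃ = (1 - 486 h₃ - 19683 h₃²)²`,
  `j₃ h₃³ = (1 + 27 h₃)(1 + 3 h₃)³`;
* for a field `K` (any characteristic): `h_r ∈ K(j, j_r) = modularFunctionFieldC K r`,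
  `j ∈ K(h_r)`, `j_r ∈ K(h_r)`, `K(h_r) = modularFunctionFieldC K r`.
-/
import Fermat.Agent.Lib.Hauptmodul.IdentZ
import Fermat.Prelude.Def_ModularCurve_JqCoeff

set_option autoImplicit false

noncomputable section

namespace Fermat.Agent.Lib.Hauptmodul

open ModularCurve PowerSeries

/-! ### identities in `ℤ⟦q⟧` -/

theorem dedekindEtaUnitInv_eq : dedekindEtaUnitInv = etaProdInv ^ 24 := by
  calc dedekindEtaUnitInv = dedekindEtaUnitInv * (etaProd * etaProdInv) ^ 24 := by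
        rw [etaProd_mul_inv, one_pow, mul_one]
    _ = (dedekindEtaUnit * dedekindEtaUnitInv) * etaProdInv ^ 24 := by
        rw [dedekindEtaUnit]; ring
    _ = etaProdInv ^ 24 := by rw [dedekindEtaUnit_mul_inv, one_mul]

theorem dilZ_etaProd_mul_inv (r : ℕ) [NeZero r] : dilZ r etaProd * dilZ r etaProdInv = 1 := by
  rw [← dilZ_mul, etaProd_mul_inv, dilZ_one]

theorem jNum_eq : jNum = eisenstein4 ^ 3 * etaProdInv ^ 24 := by
  rw [jNum, dedekindEtaUnitInv_eq]

theorem dilZ_jNum (r : ℕ) [NeZero r] :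
    dilZ r jNum = dilZ r (eisenstein4 ^ 3) * dilZ r etaProdInv ^ 24 := by
  rw [jNum_eq, dilZ_mul, dilZ_pow r etaProdInv]

theorem jNum_mul_h2Z : jNum * h2Z = X * (1 + 256 * h2Z) ^ 3 := by
  have h := identZ2a
  have h1 : etaProd ^ 24 * etaProdInv ^ 24 = 1 := by rw [← mul_pow, etaProd_mul_inv, one_pow]
  rw [map_ofNat] at h
  rw [jNum_eq, h2Z, u2Z, mul_pow]
  generalize eisenstein4 ^ 3 = E at *
  generalize etaProd ^ 24 = e at *
  generalize etaProdInv ^ 24 = e' at *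
  generalize dilZ 2 etaProd ^ 24 = d at *
  grind

theorem dilZ_jNum_mul_h2Z : dilZ 2 jNum * h2Z ^ 2 = X ^ 2 * (1 + 16 * h2Z) ^ 3 := by
  have h := identZ2b
  have h1 : etaProd ^ 24 * etaProdInv ^ 24 = 1 := by rw [← mul_pow, etaProd_mul_inv, one_pow]
  have h2 : dilZ 2 etaProd ^ 24 * dilZ 2 etaProdInv ^ 24 = 1 := by
    rw [← mul_pow, dilZ_etaProd_mul_inv, one_pow]
  rw [map_ofNat] at h
  rw [dilZ_jNum, h2Z, u2Z, mul_pow (dilZ 2 etaProd)]
  generalize dilZ 2 (eisenstein4 ^ 3) = E at *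
  generalize etaProd ^ 24 = e at *
  generalize etaProdInv ^ 24 = e' at *
  generalize dilZ 2 etaProd ^ 24 = d at *
  generalize dilZ 2 etaProdInv ^ 24 = d' at *
  grind

theorem jNum_mul_h3Z : jNum * h3Z = X * ((1 + 27 * h3Z) * (1 + 243 * h3Z) ^ 3) := by
  have h := identZ3a
  have h1 : etaProd ^ 12 * etaProdInv ^ 12 = 1 := by rw [← mul_pow, etaProd_mul_inv, one_pow]
  rw [map_ofNat, map_ofNat] at h
  rw [jNum_eq, h3Z, u3Z, mul_pow, show etaProdInv ^ 24 = (etaProdInv ^ 12) ^ 2 by ring]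
  generalize eisenstein4 ^ 3 = E at *
  generalize etaProd ^ 12 = e at *
  generalize etaProdInv ^ 12 = e' at *
  generalize dilZ 3 etaProd ^ 12 = d at *
  grind

theorem dilZ_jNum_mul_h3Z :
    dilZ 3 jNum * h3Z ^ 3 = X ^ 3 * ((1 + 27 * h3Z) * (1 + 3 * h3Z) ^ 3) := by
  have h := identZ3b
  have h1 : etaProd ^ 12 * etaProdInv ^ 12 = 1 := by rw [← mul_pow, etaProd_mul_inv, one_pow]
  have h2 : dilZ 3 etaProd ^ 12 * dilZ 3 etaProdInv ^ 12 = 1 := by
    rw [← mul_pow, dilZ_etaProd_mul_inv, one_pow]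
  rw [map_ofNat, map_ofNat] at h
  rw [dilZ_jNum, h3Z, u3Z, mul_pow (dilZ 3 etaProd),
    show dilZ 3 etaProdInv ^ 24 = (dilZ 3 etaProdInv ^ 12) ^ 2 by ring]
  generalize dilZ 3 (eisenstein4 ^ 3) = E at *
  generalize etaProd ^ 12 = e at *
  generalize etaProdInv ^ 12 = e' at *
  generalize dilZ 3 etaProd ^ 12 = d at *
  generalize dilZ 3 etaProdInv ^ 12 = d' at *
  grind

theorem h2Z_ne_zero : h2Z ≠ 0 := by
  rw [h2Z]
  apply mul_ne_zero X_ne_zero
  intro h
  have := constantCoeff_u2Z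
  rw [h] at this
  simp at this

theorem h3Z_ne_zero : h3Z ≠ 0 := by
  rw [h3Z]
  apply mul_ne_zero X_ne_zero
  intro h
  have := constantCoeff_u3Z
  rw [h] at this
  simp at this

/-! ### the Hauptmodul as a rational function of `j(q)`, `j(q^r)` -/

/-- `q⁴ (j₂² + 195120 j₂ + 4095 j + 660960000)`. -/
def A2Z : PowerSeries ℤ :=
  dilZ 2 jNum ^ 2 + 195120 * X ^ 2 * dilZ 2 jNum + 4095 * X ^ 3 * jNum + 660960000 * X ^ 4

/-- `q³ (j j₂ - 720 j₂ - 720 j - 16250625)`. -/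
def B2Z : PowerSeries ℤ :=
  jNum * dilZ 2 jNum - 720 * X * dilZ 2 jNum - 720 * X ^ 2 * jNum - 16250625 * X ^ 3

theorem A2Z_mul_h2Z : A2Z * h2Z = X * B2Z := by
  set a := jNum with ha
  set b := dilZ 2 jNum with hb
  set t := h2Z with ht
  have hP : X * (1 + 256 * t) ^ 3 - a * t = 0 := by rw [jNum_mul_h2Z]; ring
  have hQ : X ^ 2 * (1 + 16 * t) ^ 3 - b * t ^ 2 = 0 := by rw [dilZ_jNum_mul_h2Z]; ring
  have key : t * (A2Z * t - X * B2Z) = 0 := by
    rw [A2Z, B2Z, ← ha, ← hb]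
    linear_combination (-(((-1) * X ^ 1 * b ^ 1 + (720) * X ^ 3) * t ^ 0 + ((4095) * X ^ 3) * t ^ 1)) * hP - (((1) * b ^ 1 + (-720) * X ^ 2) * t ^ 0 + ((-16773120) * X ^ 2) * t ^ 1) * hQ
  rcases mul_eq_zero.1 key with h | h
  · exact absurd h h2Z_ne_zero
  · exact sub_eq_zero.1 h

theorem constantCoeff_A2Z : constantCoeff A2Z = 1 := by
  simp [A2Z, constantCoeff_dilZ]

/-- `q⁹ A(j, j₃)`. -/
def A3Z : PowerSeries ℤ :=
  (1) * dilZ 3 jNum ^ 3 + (196830) * X ^ 2 * jNum ^ 1 * dilZ 3 jNum ^ 2 + (-103456080) * X ^ 3 * dilZ 3 jNum ^ 2 + (729) * X ^ 4 * jNum ^ 2 * dilZ 3 jNum ^ 1 + (18821147040) * X ^ 5 * jNum ^ 1 * dilZ 3 jNum ^ 1 + (276373831680000) * X ^ 6 * dilZ 3 jNum ^ 1 + (-524880) * X ^ 7 * jNum ^ 2 + (14229831680000) * X ^ 8 * jNum ^ 1 + (-3623878656000000000) * X ^ 9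

/-- `q⁸ B(j, j₃)`. -/
def B3Z : PowerSeries ℤ :=
  (-1) * jNum ^ 2 * dilZ 3 jNum ^ 2 + (1476) * X ^ 1 * jNum ^ 1 * dilZ 3 jNum ^ 2 + (-347760) * X ^ 2 * dilZ 3 jNum ^ 2 + (1476) * X ^ 3 * jNum ^ 2 * dilZ 3 jNum ^ 1 + (1461408480) * X ^ 4 * jNum ^ 1 * dilZ 3 jNum ^ 1 + (2707292160000) * X ^ 5 * dilZ 3 jNum ^ 1 + (-347760) * X ^ 6 * jNum ^ 2 + (2707292160000) * X ^ 7 * jNum ^ 1 + (-134217728000000000) * X ^ 8

theorem A3Z_mul_h3Z : A3Z * h3Z + X * B3Z = 0 := by
  set a := jNum with ha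
  set b := dilZ 3 jNum with hb
  set t := h3Z with ht
  have hP : X * ((1 + 27 * t) * (1 + 243 * t) ^ 3) - a * t = 0 := by rw [jNum_mul_h3Z]; ring
  have hQ : X ^ 3 * ((1 + 27 * t) * (1 + 3 * t) ^ 3) - b * t ^ 3 = 0 := by
    rw [dilZ_jNum_mul_h3Z]; ring
  have key : t ^ 2 * (A3Z * t + X * B3Z) = 0 := by
    rw [A3Z, B3Z, ← ha, ← hb]
    linear_combination (((1) * X ^ 2 * b ^ 2 + (19130400) * X ^ 5 * b ^ 1 + (90685440000) * X ^ 8) * t ^ 0 + ((1) * X ^ 1 * a ^ 1 * b ^ 2 + (-720) * X ^ 2 * b ^ 2 + (-1476) * X ^ 4 * a ^ 1 * b ^ 1 + (-386357040) * X ^ 5 * b ^ 1 + (347760) * X ^ 7 * a ^ 1 + (278691840000) * X ^ 8) * t ^ 1 + ((-729) * X ^ 4 * a ^ 1 * b ^ 1 + (524880) * X ^ 5 * b ^ 1 + (524880) * X ^ 7 * a ^ 1 + (282050560000) * X ^ 8) * t ^ 2) * hP + (((-1) * b ^ 2 + (-19130400) * X ^ 3 * b ^ 1 + (-90685440000) * X ^ 6) * t ^ 0 + ((19131876) * X ^ 2 * a ^ 1 * b ^ 1 + (-13387530960) * X ^ 3 * b ^ 1 + (90685092240) * X ^ 5 * a ^ 1 +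 (-65572208640000) * X ^ 6) * t ^ 1 + ((387420489) * X ^ 2 * a ^ 1 * b ^ 1 + (-278942752080) * X ^ 3 * b ^ 1 + (-278942752080) * X ^ 5 * a ^ 1 + (-149893231656960000) * X ^ 6) * t ^ 2) * hQ
  rcases mul_eq_zero.1 key with h | h
  · exact absurd (pow_eq_zero_iff (two_ne_zero)|>.1 h) h3Z_ne_zero
  · exact h

theorem constantCoeff_A3Z : constantCoeff A3Z = 1 := by
  simp [A3Z, constantCoeff_dilZ]

/-! ### identities in `K((q))`, `K` any commutative ring -/

section Ring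

variable (K : Type*) [CommRing K]

theorem single_neg_mul_toL_X_pow (n : ℕ) :
    HahnSeries.single (-(n : ℤ)) (1 : K) * toL K X ^ n = 1 := by
  rw [toL_X, HahnSeries.single_pow, HahnSeries.single_mul_single]
  simp

theorem single_neg_one_mul_toL_X :
    HahnSeries.single (-1 : ℤ) (1 : K) * toL K X = 1 := by
  simpa using single_neg_mul_toL_X_pow K 1

theorem jqModC_eq : jqModC K = HahnSeries.single (-1 : ℤ) 1 * toL K jNum := rfl

theorem jqNModC_eq (r : ℕ) [NeZero r] :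
    jqNModC K r = HahnSeries.single (-(r : ℤ)) 1 * toL K (dilZ r jNum) := by
  rw [jqNModC, jqModC_eq, map_mul, qExpand_single, toL_dilZ, mul_neg, mul_one]

theorem toL_jNum : toL K jNum = toL K X * jqModC K := by
  rw [jqModC_eq, ← mul_assoc, mul_comm (toL K X), single_neg_one_mul_toL_X, one_mul]

theorem toL_dilZ_jNum (r : ℕ) [NeZero r] : toL K (dilZ r jNum) = toL K X ^ r * jqNModC K r := by
  rw [jqNModC_eq, ← mul_assoc, mul_comm (toL K X ^ r), single_neg_mul_toL_X_pow, one_mul]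

theorem jqModC_mul_h2 : jqModC K * toL K h2Z = (1 + 256 * toL K h2Z) ^ 3 := by
  have h := congrArg (toL K) jNum_mul_h2Z
  have hq := single_neg_one_mul_toL_X K
  simp only [map_mul, map_pow, map_add, map_one, map_ofNat] at h
  rw [jqModC_eq]
  linear_combination (HahnSeries.single (-1 : ℤ) (1 : K)) * h + (1 + 256 * toL K h2Z) ^ 3 * hq

theorem jqModC_sub_mul_h2 :
    (jqModC K - 1728) * toL K h2Z = (1 + 64 * toL K h2Z) * (1 - 512 * toL K h2Z) ^ 2 := by
  linear_combination jqModC_mul_h2 K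

theorem jqNModC_two_mul_h2 : jqNModC K 2 * toL K h2Z ^ 2 = (1 + 16 * toL K h2Z) ^ 3 := by
  have h := congrArg (toL K) dilZ_jNum_mul_h2Z
  have hq := single_neg_mul_toL_X_pow K 2
  simp only [map_mul, map_pow, map_add, map_one, map_ofNat] at h
  rw [jqNModC_eq]
  linear_combination (HahnSeries.single (-((2 : ℕ) : ℤ)) (1 : K)) * h
    + (1 + 16 * toL K h2Z) ^ 3 * hq

theorem jqModC_mul_h3 :
    jqModC K * toL K h3Z = (1 + 27 * toL K h3Z) * (1 + 243 * toL K h3Z) ^ 3 := by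
  have h := congrArg (toL K) jNum_mul_h3Z
  have hq := single_neg_one_mul_toL_X K
  simp only [map_mul, map_pow, map_add, map_one, map_ofNat] at h
  rw [jqModC_eq]
  linear_combination (HahnSeries.single (-1 : ℤ) (1 : K)) * h
    + ((1 + 27 * toL K h3Z) * (1 + 243 * toL K h3Z) ^ 3) * hq

theorem jqModC_sub_mul_h3 :
    (jqModC K - 1728) * toL K h3Z = (1 - 486 * toL K h3Z - 19683 * toL K h3Z ^ 2) ^ 2 := by
  linear_combination jqModC_mul_h3 K

theorem jqNModC_three_mul_h3 :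
    jqNModC K 3 * toL K h3Z ^ 3 = (1 + 27 * toL K h3Z) * (1 + 3 * toL K h3Z) ^ 3 := by
  have h := congrArg (toL K) dilZ_jNum_mul_h3Z
  have hq := single_neg_mul_toL_X_pow K 3
  simp only [map_mul, map_pow, map_add, map_one, map_ofNat] at h
  rw [jqNModC_eq]
  linear_combination (HahnSeries.single (-((3 : ℕ) : ℤ)) (1 : K)) * h
    + ((1 + 27 * toL K h3Z) * (1 + 3 * toL K h3Z) ^ 3) * hq

/-- `toL K P` is a unit when `P` has constant coefficient `1`. -/
theorem isUnit_toL {P : PowerSeries ℤ} (hP : constantCoeff P = 1) : IsUnit (toL K P) :=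
  IsUnit.of_mul_eq_one _ (toL_mul_toL_invOfUnit K P hP)

theorem isUnit_toL_X : IsUnit (toL K X) :=
  IsUnit.of_mul_eq_one _ ((mul_comm _ _).trans (single_neg_one_mul_toL_X K))

theorem isUnit_toL_h2Z : IsUnit (toL K h2Z) := by
  rw [h2Z, map_mul]
  exact (isUnit_toL_X K).mul (isUnit_toL K constantCoeff_u2Z)

theorem isUnit_toL_h3Z : IsUnit (toL K h3Z) := by
  rw [h3Z, map_mul]
  exact (isUnit_toL_X K).mul (isUnit_toL K constantCoeff_u3Z)

/-- the denominator of `h₂` as a rational function of `j, j₂`. -/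
def den2 : LaurentSeries K :=
  jqNModC K 2 ^ 2 + 195120 * jqNModC K 2 + 4095 * jqModC K + 660960000

/-- the numerator of `h₂` as a rational function of `j, j₂`. -/
def num2 : LaurentSeries K :=
  jqModC K * jqNModC K 2 - 720 * jqNModC K 2 - 720 * jqModC K - 16250625

theorem toL_A2Z : toL K A2Z = toL K X ^ 4 * den2 K := by
  simp only [A2Z, den2, map_add, map_mul, map_pow, map_ofNat, toL_jNum, toL_dilZ_jNum]
  ring

theorem toL_B2Z : toL K B2Z = toL K X ^ 3 * num2 K := by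
  simp only [B2Z, num2, map_sub, map_mul, map_pow, map_ofNat, toL_jNum, toL_dilZ_jNum]
  ring

theorem isUnit_den2 : IsUnit (den2 K) :=
  isUnit_of_mul_isUnit_right (toL_A2Z K ▸ isUnit_toL K constantCoeff_A2Z)

theorem den2_mul_h2 : den2 K * toL K h2Z = num2 K := by
  have h := congrArg (toL K) A2Z_mul_h2Z
  rw [map_mul, map_mul, toL_A2Z, toL_B2Z] at h
  apply ((isUnit_toL_X K).pow 4).mul_left_cancel
  linear_combination h

/-- the denominator of `h₃` as a rational function of `j, j₃`. -/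
def den3 : LaurentSeries K :=
  jqNModC K 3 ^ 3 + 196830 * jqModC K * jqNModC K 3 ^ 2 - 103456080 * jqNModC K 3 ^ 2
    + 729 * jqModC K ^ 2 * jqNModC K 3 + 18821147040 * jqModC K * jqNModC K 3
    + 276373831680000 * jqNModC K 3 - 524880 * jqModC K ^ 2 + 14229831680000 * jqModC K
    - 3623878656000000000

/-- the numerator of `h₃` as a rational function of `j, j₃`. -/
def num3 : LaurentSeries K :=
  jqModC K ^ 2 * jqNModC K 3 ^ 2 - 1476 * jqModC K * jqNModC K 3 ^ 2 + 347760 * jqNModC K 3 ^ 2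
    - 1476 * jqModC K ^ 2 * jqNModC K 3 - 1461408480 * jqModC K * jqNModC K 3
    - 2707292160000 * jqNModC K 3 + 347760 * jqModC K ^ 2 - 2707292160000 * jqModC K
    + 134217728000000000

theorem toL_A3Z : toL K A3Z = toL K X ^ 9 * den3 K := by
  simp only [A3Z, den3, map_add, map_mul, map_pow, map_ofNat, map_neg, map_one, toL_jNum,
    toL_dilZ_jNum]
  ring

theorem toL_B3Z : toL K B3Z = - (toL K X ^ 8 * num3 K) := by
  simp only [B3Z, num3, map_add, map_mul, map_pow, map_ofNat, map_neg, map_one, toL_jNum,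
    toL_dilZ_jNum]
  ring

theorem isUnit_den3 : IsUnit (den3 K) :=
  isUnit_of_mul_isUnit_right (toL_A3Z K ▸ isUnit_toL K constantCoeff_A3Z)

theorem den3_mul_h3 : den3 K * toL K h3Z = num3 K := by
  have h := congrArg (toL K) A3Z_mul_h3Z
  rw [map_add, map_mul, map_mul, toL_A3Z, toL_B3Z, map_zero] at h
  apply ((isUnit_toL_X K).pow 9).mul_left_cancel
  linear_combination h

end Ring

/-! ### leading coefficients, any ring -/

section Coeff

variable (K : Type*) [CommRing K]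

theorem coeff_toL_X_mul_one (u : PowerSeries ℤ) (hu : constantCoeff u = 1) :
    (toL K (X * u)).coeff 1 = 1 := by
  have h := toL_coeff_natCast K (X * u) 1
  rw [Nat.cast_one] at h
  rw [h, show (1 : ℕ) = 0 + 1 from rfl, coeff_succ_X_mul,
    coeff_zero_eq_constantCoeff_apply, hu, Int.cast_one]

theorem coeff_toL_X_mul_of_lt (u : PowerSeries ℤ) {k : ℤ} (hk : k < 1) :
    (toL K (X * u)).coeff k = 0 := by
  rcases lt_or_ge k 0 with hm | hm
  · exact toL_coeff_of_neg _ _ hm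
  · have hk0 : k = ((0 : ℕ) : ℤ) := by push_cast; omega
    rw [hk0, toL_coeff_natCast, coeff_zero_X_mul, Int.cast_zero]

theorem coeff_toL_h2Z_one : (toL K h2Z).coeff 1 = 1 :=
  coeff_toL_X_mul_one K u2Z constantCoeff_u2Z

theorem coeff_toL_h3Z_one : (toL K h3Z).coeff 1 = 1 :=
  coeff_toL_X_mul_one K u3Z constantCoeff_u3Z

theorem coeff_toL_h2Z_of_lt {k : ℤ} (hk : k < 1) : (toL K h2Z).coeff k = 0 :=
  coeff_toL_X_mul_of_lt K u2Z hk

theorem coeff_toL_h3Z_of_lt {k : ℤ} (hk : k < 1) : (toL K h3Z).coeff k = 0 :=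
  coeff_toL_X_mul_of_lt K u3Z hk

end Coeff

/-! ### fields of arbitrary characteristic -/

section Field

variable (K : Type*) [Field K]

theorem transcendental_toL_h2Z : Transcendental K (toL K h2Z) :=
  transcendental_of_coeff _ (fun _ hk => coeff_toL_h2Z_of_lt K hk) (coeff_toL_h2Z_one K)

theorem transcendental_toL_h3Z : Transcendental K (toL K h3Z) :=
  transcendental_of_coeff _ (fun _ hk => coeff_toL_h3Z_of_lt K hk) (coeff_toL_h3Z_one K)

theorem toL_h2Z_ne_zero : toL K h2Z ≠ 0 := (isUnit_toL_h2Z K).ne_zero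

theorem toL_h3Z_ne_zero : toL K h3Z ≠ 0 := (isUnit_toL_h3Z K).ne_zero

theorem toL_h2Z_eq_div : toL K h2Z = num2 K / den2 K := by
  rw [eq_div_iff (isUnit_den2 K).ne_zero, mul_comm, den2_mul_h2]

theorem toL_h3Z_eq_div : toL K h3Z = num3 K / den3 K := by
  rw [eq_div_iff (isUnit_den3 K).ne_zero, mul_comm, den3_mul_h3]

theorem ofNat_mem_intermediateField {L : Type*} [Field L] [Algebra K L]
    (F : IntermediateField K L) (n : ℕ) [n.AtLeastTwo] : (OfNat.ofNat n : L) ∈ F := by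
  have : ((n : ℕ) : L) ∈ F := natCast_mem F n
  simpa using this

theorem toL_h2Z_mem : toL K h2Z ∈ modularFunctionFieldC K 2 := by
  have hj := jqModC_mem K 2
  have hj2 := jqNModC_mem K 2
  have hn := fun (n : ℕ) [n.AtLeastTwo] => ofNat_mem_intermediateField K (modularFunctionFieldC K 2) n
  rw [toL_h2Z_eq_div]
  apply div_mem
  · rw [num2]
    exact sub_mem (sub_mem (sub_mem (mul_mem hj hj2) (mul_mem (hn _) hj2)) (mul_mem (hn _) hj))
      (hn _)
  · rw [den2]
    exact add_mem (add_mem (add_mem (pow_mem hj2 _) (mul_mem (hn _) hj2)) (mul_mem (hn _) hj))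
      (hn _)

theorem toL_h3Z_mem : toL K h3Z ∈ modularFunctionFieldC K 3 := by
  have hj := jqModC_mem K 3
  have hj3 := jqNModC_mem K 3
  have hn := fun (n : ℕ) [n.AtLeastTwo] => ofNat_mem_intermediateField K (modularFunctionFieldC K 3) n
  rw [toL_h3Z_eq_div]
  apply div_mem
  · rw [num3]
    refine add_mem (sub_mem (add_mem (sub_mem (sub_mem (sub_mem (add_mem (sub_mem ?_ ?_) ?_) ?_)
      ?_) ?_) ?_) ?_) (hn _)
    all_goals
      first
        | exact mul_mem (pow_mem hj _) (pow_mem hj3 _)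
        | exact mul_mem (mul_mem (hn _) hj) (pow_mem hj3 _)
        | exact mul_mem (hn _) (pow_mem hj3 _)
        | exact mul_mem (mul_mem (hn _) (pow_mem hj _)) hj3
        | exact mul_mem (mul_mem (hn _) hj) hj3
        | exact mul_mem (hn _) hj3
        | exact mul_mem (hn _) (pow_mem hj _)
        | exact mul_mem (hn _) hj
  · rw [den3]
    refine sub_mem (add_mem (sub_mem (add_mem (add_mem (add_mem (sub_mem (add_mem ?_ ?_) ?_) ?_)
      ?_) ?_) ?_) ?_) (hn _)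
    all_goals
      first
        | exact pow_mem hj3 _
        | exact mul_mem (pow_mem hj _) (pow_mem hj3 _)
        | exact mul_mem (mul_mem (hn _) hj) (pow_mem hj3 _)
        | exact mul_mem (hn _) (pow_mem hj3 _)
        | exact mul_mem (mul_mem (hn _) (pow_mem hj _)) hj3
        | exact mul_mem (mul_mem (hn _) hj) hj3
        | exact mul_mem (hn _) hj3
        | exact mul_mem (hn _) (pow_mem hj _)
        | exact mul_mem (hn _) hj

theorem jqModC_eq_div_h2 : jqModC K = (1 + 256 * toL K h2Z) ^ 3 / toL K h2Z := by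
  rw [eq_div_iff (toL_h2Z_ne_zero K), jqModC_mul_h2]

theorem jqNModC_two_eq_div_h2 : jqNModC K 2 = (1 + 16 * toL K h2Z) ^ 3 / toL K h2Z ^ 2 := by
  rw [eq_div_iff (pow_ne_zero _ (toL_h2Z_ne_zero K)), jqNModC_two_mul_h2]

theorem jqModC_eq_div_h3 :
    jqModC K = (1 + 27 * toL K h3Z) * (1 + 243 * toL K h3Z) ^ 3 / toL K h3Z := by
  rw [eq_div_iff (toL_h3Z_ne_zero K), jqModC_mul_h3]

theorem jqNModC_three_eq_div_h3 :
    jqNModC K 3 = (1 + 27 * toL K h3Z) * (1 + 3 * toL K h3Z) ^ 3 / toL K h3Z ^ 3 := by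
  rw [eq_div_iff (pow_ne_zero _ (toL_h3Z_ne_zero K)), jqNModC_three_mul_h3]

/-- `K(j, j₂) = K(h₂)`, in every characteristic. -/
theorem modularFunctionFieldC_two :
    modularFunctionFieldC K 2 = IntermediateField.adjoin K {toL K h2Z} := by
  apply le_antisymm
  · have hh : toL K h2Z ∈ IntermediateField.adjoin K {toL K h2Z} :=
      IntermediateField.mem_adjoin_simple_self K _
    have hn := fun (n : ℕ) [n.AtLeastTwo] =>
      ofNat_mem_intermediateField K (IntermediateField.adjoin K {toL K h2Z}) n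
    rw [modularFunctionFieldC, IntermediateField.adjoin_le_iff]
    rintro x (rfl | rfl)
    · rw [jqModC_eq_div_h2]
      exact div_mem (pow_mem (add_mem (one_mem _) (mul_mem (hn _) hh)) _) hh
    · rw [SetLike.mem_coe, jqNModC_two_eq_div_h2]
      exact div_mem (pow_mem (add_mem (one_mem _) (mul_mem (hn _) hh)) _) (pow_mem hh _)
  · rw [IntermediateField.adjoin_simple_le_iff]
    exact toL_h2Z_mem K

/-- `K(j, j₃) = K(h₃)`, in every characteristic. -/
theorem modularFunctionFieldC_three :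
    modularFunctionFieldC K 3 = IntermediateField.adjoin K {toL K h3Z} := by
  apply le_antisymm
  · have hh : toL K h3Z ∈ IntermediateField.adjoin K {toL K h3Z} :=
      IntermediateField.mem_adjoin_simple_self K _
    have hn := fun (n : ℕ) [n.AtLeastTwo] =>
      ofNat_mem_intermediateField K (IntermediateField.adjoin K {toL K h3Z}) n
    rw [modularFunctionFieldC, IntermediateField.adjoin_le_iff]
    rintro x (rfl | rfl)
    · rw [jqModC_eq_div_h3]
      exact div_mem (mul_mem (add_mem (one_mem _) (mul_mem (hn _) hh))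
        (pow_mem (add_mem (one_mem _) (mul_mem (hn _) hh)) _)) hh
    · rw [SetLike.mem_coe, jqNModC_three_eq_div_h3]
      exact div_mem (mul_mem (add_mem (one_mem _) (mul_mem (hn _) hh))
        (pow_mem (add_mem (one_mem _) (mul_mem (hn _) hh)) _)) (pow_mem hh _)
  · rw [IntermediateField.adjoin_simple_le_iff]
    exact toL_h3Z_mem K

end Field

end Fermat.Agent.Lib.Hauptmodul

end
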